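import Fermat.Agent.Onsager.Main
import Mathlib.Analysis.SpecialFunctions.Integrals.Basic
import Mathlib.Analysis.Calculus.Deriv.MeanValue

/-!
# The singularity at the critical coupling

For equal couplings `w = sinh (2 β)` enters the dispersion through `(w - 1) ^ 2 / w`, and near the
slow modes an amount `u` there changes the free energy by order `u * log (1 / u)`. Hence the second
symmetric quotient of the free energy is unbounded at `w = 1`.
-/

set_option autoImplicit false

noncomputable section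

open Finset Real Filter MeasureTheory
open scoped BigOperators Topology

namespace FA.Onsager

/-- The critical coupling. -/
def critical : ℝ := log (1 + Real.sqrt 2) / 2

theorem two_mul_critical : 2 * critical = arsinh 1 := by
  rw [critical, arsinh]
  norm_num
  ring

theorem critical_pos : 0 < critical := by
  have := arsinh_pos_iff.2 (one_pos (α := ℝ))
  linarith [two_mul_critical]

theorem sinh_two_mul_critical : sinh (2 * critical) = 1 := by rw [two_mul_critical, sinh_arsinh]

/-- The change of the dispersion integral. -/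
def excessMode (u : ℝ) : ℝ :=
  (∫ φ in (0 : ℝ)..π, arcosh (u + 2 - cos φ)) - ∫ φ in (0 : ℝ)..π, arcosh (2 - cos φ)

theorem continuous_mode {u : ℝ} (hu : 0 ≤ u) : Continuous fun φ => arcosh (u + 2 - cos φ) :=
  continuousOn_arcosh.comp_continuous (by fun_prop) fun φ => by
    simp only [Set.mem_Ici]
    linarith [cos_le_one φ]

theorem arcosh_gain {x y : ℝ} (hx : 1 ≤ x) (hxy : x < y) :
    (y - x) / Real.sqrt (y ^ 2 - 1) ≤ arcosh y - arcosh x := by
  have hlt : arcosh x < arcosh y := (arcosh_lt_arcosh (by linarith) (by linarith)).2 hxy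
  obtain ⟨c, hc, he⟩ := exists_deriv_eq_slope cosh hlt Real.continuous_cosh.continuousOn
    Real.differentiable_cosh.differentiableOn
  rw [Real.deriv_cosh, cosh_arcosh hx, cosh_arcosh (by linarith : 1 ≤ y),
    eq_div_iff (sub_ne_zero.2 hlt.ne')] at he
  have hy : 0 < arcosh y := lt_of_le_of_lt (arcosh_nonneg hx) hlt
  have hsy : sinh (arcosh y) = Real.sqrt (y ^ 2 - 1) := by
    have hsq := cosh_sq (arcosh y)
    rw [cosh_arcosh (by linarith : 1 ≤ y)] at hsq
    rw [show y ^ 2 - 1 = sinh (arcosh y) ^ 2 by linarith, Real.sqrt_sq (sinh_nonneg_iff.2 hy.le)]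
  rw [← hsy, div_le_iff₀ (sinh_pos_iff.2 hy), ← he]
  nlinarith [sinh_le_sinh.2 hc.2.le]

theorem excessMode_nonneg {u : ℝ} (hu : 0 ≤ u) : 0 ≤ excessMode u := by
  rw [excessMode, sub_nonneg]
  refine intervalIntegral.integral_mono_on pi_pos.le ?_
    ((continuous_mode hu).intervalIntegrable _ _) fun φ _ => ?_
  · simpa using (continuous_mode le_rfl).intervalIntegrable 0 π
  · rw [arcosh_le_arcosh (by linarith [cos_le_one φ]) (by linarith [cos_le_one φ])]
    linarith

theorem excessMode_lower {u : ℝ} (hu : 0 < u) (hu1 : u ≤ 1) :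
    u / 8 * -log u ≤ excessMode u := by
  set g : ℝ → ℝ := fun φ => arcosh (u + 2 - cos φ) - arcosh (2 - cos φ) with hg
  have hg0 : Continuous fun φ => arcosh (2 - cos φ) := by simpa using continuous_mode (le_refl 0)
  have hgc : Continuous g := (continuous_mode hu.le).sub hg0
  have hgnn : ∀ φ, 0 ≤ g φ := fun φ => by
    simp only [hg, sub_nonneg]
    rw [arcosh_le_arcosh (by linarith [cos_le_one φ]) (by linarith [cos_le_one φ])]
    linarith
  have hr : 0 < Real.sqrt u := Real.sqrt_pos.2 hu
  have hr1 : Real.sqrt u ≤ 1 := Real.sqrt_le_one.2 hu1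
  have e : excessMode u = ∫ φ in (0 : ℝ)..π, g φ := by
    rw [excessMode, hg, intervalIntegral.integral_sub
      ((continuous_mode hu.le).intervalIntegrable _ _)
      (hg0.intervalIntegrable _ _)]
  have h1 : ∫ φ in Real.sqrt u..1, u / 4 * (1 / φ) ≤ ∫ φ in Real.sqrt u..1, g φ := by
    refine intervalIntegral.integral_mono_on hr1 ?_ (hgc.intervalIntegrable _ _) fun φ hφ => ?_
    · refine ((intervalIntegral.intervalIntegrable_one_div (fun x hx => ?_)
        continuousOn_id).const_mul
        _)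
      rw [Set.uIcc_of_le hr1] at hx
      exact (lt_of_lt_of_le hr hx.1).ne'
    · have hφ0 : 0 < φ := lt_of_lt_of_le hr hφ.1
      have hu2 : u ≤ φ ^ 2 := by
        nlinarith [Real.sq_sqrt hu.le, hφ.1]
      have hc : 1 - φ ^ 2 / 2 ≤ cos φ := one_sub_sq_div_two_le_cos
      have hgain := arcosh_gain (x := 2 - cos φ) (y := u + 2 - cos φ)
        (by linarith [cos_le_one φ]) (by linarith)
      refine le_trans ?_ hgain
      rw [show u + 2 - cos φ - (2 - cos φ) = u by ring, div_mul_div_comm, mul_one]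
      refine div_le_div_of_nonneg_left hu.le (Real.sqrt_pos.2 ?_) (Real.sqrt_le_iff.2
        ⟨by positivity, ?_⟩)
      · nlinarith [cos_le_one φ]
      · have hy : u + 2 - cos φ - 1 ≤ 2 * φ ^ 2 := by linarith
        have hy' : u + 2 - cos φ + 1 ≤ 8 := by linarith [neg_one_le_cos φ]
        have := mul_le_mul hy hy' (by linarith [cos_le_one φ]) (by positivity)
        nlinarith
  have h2 : ∫ φ in Real.sqrt u..1, u / 4 * (1 / φ) = u / 8 * -log u := by
    rw [intervalIntegral.integral_const_mul, integral_one_div_of_pos hr one_pos, one_div, log_inv,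
      Real.log_sqrt hu.le]
    ring
  rw [e, ← h2]
  refine h1.trans ?_
  refine intervalIntegral.integral_mono_interval hr.le hr1 (by linarith [two_le_pi])
    (Eventually.of_forall hgnn) (hgc.intervalIntegrable _ _)

theorem freeEnergy_self {b : ℝ} (hb : 0 < b) : freeEnergy b b = log (2 * sinh (2 * b)) / 2 +
    (∫ φ in (0 : ℝ)..π, arcosh ((sinh (2 * b) - 1) ^ 2 / sinh (2 * b) + 2 - cos φ)) / (2 * π) := by
  have hs : 0 < sinh (2 * b) := sinh_pos_iff.2 (by linarith)
  rw [freeEnergy]
  congr 2
  refine intervalIntegral.integral_congr fun φ _ => ?_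
  congr 1
  have := cosh_sq (2 * b)
  field_simp
  linear_combination this

theorem freeEnergy_second_diff {h : ℝ} (h0 : 0 < h) (h1 : h ≤ 1 / 50) :
    -log (144 * h ^ 2) / (8 * π) - 16 ≤
      (freeEnergy (critical + h) (critical + h) + freeEnergy (critical - h) (critical - h) -
        2 * freeEnergy critical critical) / h ^ 2 := by
  set x := 2 * critical with hx
  set d := 2 * h with hd
  have hsx : sinh x = 1 := sinh_two_mul_critical
  have hcx : cosh x ^ 2 = 2 := by rw [cosh_sq, hsx]; norm_num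
  have hcx1 : 1 ≤ cosh x := one_le_cosh x
  have hcx2 : cosh x ≤ 2 := by nlinarith
  have hd0 : 0 < d := by positivity
  have hd1 : d ≤ 1 / 25 := by rw [hd]; linarith
  have e1 := abs_exp_sub_one_le (x := d) (by rw [abs_of_pos hd0]; linarith)
  have e2 := abs_exp_sub_one_le (x := -d) (by rw [abs_neg, abs_of_pos hd0]; linarith)
  rw [abs_of_pos hd0] at e1
  rw [abs_neg, abs_of_pos hd0] at e2
  rw [abs_le] at e1 e2
  have hs0 : d ≤ sinh d := self_le_sinh_iff.2 hd0.le
  have hs1 : sinh d ≤ 2 * d := by rw [sinh_eq]; linarith [e1.1, e1.2, e2.1, e2.2]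
  have hc1 : cosh d ≤ 1 + 2 * d := by rw [cosh_eq]; linarith [e1.1, e1.2, e2.1, e2.2]
  have hc0 := one_le_cosh d
  have hcrit : h < critical := by
    by_contra hcon
    have : x ≤ d := by rw [hx, hd]; linarith
    have := sinh_le_sinh.2 this
    linarith
  set wp := sinh (x + d) with hwp
  set wm := sinh (x - d) with hwm
  have ep : wp = cosh d + cosh x * sinh d := by rw [hwp, sinh_add, hsx, one_mul]
  have em : wm = cosh d - cosh x * sinh d := by rw [hwm, sinh_sub, hsx, one_mul]
  have hwm0 : 0 < wm := sinh_pos_iff.2 (by rw [hx, hd]; linarith)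
  have hwp0 : 0 < wp := sinh_pos_iff.2 (by rw [hx, hd]; linarith)
  have hprod : wp * wm = 1 - sinh d ^ 2 := by
    rw [ep, em]
    linear_combination cosh_sq d - sinh d ^ 2 * hcx
  have hwp1 : d ≤ wp - 1 := by
    rw [ep]
    nlinarith [mul_le_mul_of_nonneg_right hcx1 (hd0.le.trans hs0)]
  have hwp2 : wp - 1 ≤ 6 * d := by
    rw [ep]
    nlinarith [mul_le_mul hcx2 hs1 (hd0.le.trans hs0) zero_le_two]
  set up := (wp - 1) ^ 2 / wp with hup
  have hd2 : d ^ 2 = 4 * h ^ 2 := by rw [hd]; ring
  have hh : 144 * h ^ 2 ≤ 1 := by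
    have := pow_le_pow_left₀ h0.le h1 2
    norm_num at this
    linarith
  have hwp3 : 0 ≤ wp - 1 := hd0.le.trans hwp1
  have hup1 : 2 * h ^ 2 ≤ up := by
    rw [hup, le_div_iff₀ hwp0]
    calc 2 * h ^ 2 * wp ≤ 2 * h ^ 2 * 2 :=
          mul_le_mul_of_nonneg_left (by linarith) (by positivity)
      _ = d ^ 2 := by rw [hd2]; ring
      _ ≤ (wp - 1) ^ 2 := pow_le_pow_left₀ hd0.le hwp1 2
  have hup2 : up ≤ 144 * h ^ 2 := by
    rw [hup, div_le_iff₀ hwp0]
    calc (wp - 1) ^ 2 ≤ (6 * d) ^ 2 := pow_le_pow_left₀ hwp3 hwp2 2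
      _ = 144 * h ^ 2 * 1 := by rw [mul_pow, hd2]; ring
      _ ≤ 144 * h ^ 2 * wp := mul_le_mul_of_nonneg_left (by linarith) (by positivity)
  have hup3 : up ≤ 1 := hup2.trans hh
  have hup0 : 0 < up := lt_of_lt_of_le (by positivity) hup1
  have hum : 0 ≤ (wm - 1) ^ 2 / wm := by positivity
  have eval : ∀ b, 0 < b → freeEnergy b b = log 2 / 2 + log (sinh (2 * b)) / 2 +
      (∫ φ in (0 : ℝ)..π, arcosh (2 - cos φ)) / (2 * π) +
      excessMode ((sinh (2 * b) - 1) ^ 2 / sinh (2 * b)) / (2 * π) := fun b hb => by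
    rw [freeEnergy_self hb, log_mul two_ne_zero (sinh_pos_iff.2 (by linarith)).ne', excessMode]
    ring
  have hz : excessMode 0 = 0 := by simp [excessMode]
  rw [eval _ (by linarith [critical_pos]), eval _ (by linarith), eval _ critical_pos,
    show 2 * (critical + h) = x + d by rw [hx, hd]; ring,
    show 2 * (critical - h) = x - d by rw [hx, hd]; ring, ← hwp, ← hwm, ← hx, hsx, sub_self,
    zero_pow two_ne_zero, zero_div, hz, log_one, ← hup]
  have hlog : -(32 * h ^ 2) ≤ log wp + log wm := by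
    rw [← log_mul hwp0.ne' hwm0.ne', hprod]
    have hs2 : sinh d ^ 2 ≤ 16 * h ^ 2 := by
      refine (pow_le_pow_left₀ (hd0.le.trans hs0) hs1 2).trans (le_of_eq ?_)
      rw [mul_pow, hd2]
      ring
    have hhalf : sinh d ^ 2 ≤ 1 / 2 := by linarith
    refine le_trans ?_ (one_sub_inv_le_log_of_pos (by linarith))
    have : (1 - sinh d ^ 2)⁻¹ ≤ 1 + 2 * sinh d ^ 2 := by
      rw [inv_le_iff_one_le_mul₀ (by linarith)]
      nlinarith [sq_nonneg (sinh d)]
    linarith
  have hmain : h ^ 2 / 4 * -log (144 * h ^ 2) ≤ excessMode up := by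
    refine le_trans ?_ (excessMode_lower hup0 hup3)
    refine mul_le_mul (by linarith) (neg_le_neg (log_le_log hup0 hup2)) ?_ (by positivity)
    exact neg_nonneg.2 (log_nonpos (by positivity) hh)
  have hm := excessMode_nonneg hum
  have hkey : -log (144 * h ^ 2) / (8 * π) * h ^ 2 - 16 * h ^ 2 ≤
      (log wp + log wm) / 2 + (excessMode up + excessMode ((wm - 1) ^ 2 / wm)) / (2 * π) := by
    have h3 : h ^ 2 / 4 * -log (144 * h ^ 2) / (2 * π) ≤
        (excessMode up + excessMode ((wm - 1) ^ 2 / wm)) / (2 * π) :=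
      div_le_div_of_nonneg_right (by linarith) (by positivity)
    have e4 : h ^ 2 / 4 * -log (144 * h ^ 2) / (2 * π) = -log (144 * h ^ 2) / (8 * π) * h ^ 2 := by
      ring
    linarith
  rw [le_div_iff₀ (by positivity), sub_mul]
  refine hkey.trans (le_of_eq ?_)
  ring

/-- **The free energy is not smooth at the critical coupling.** -/
theorem tendsto_second_diff_atTop :
    Tendsto (fun h : ℝ =>
      (freeEnergy (critical + h) (critical + h) + freeEnergy (critical - h) (critical - h) -
        2 * freeEnergy critical critical) / h ^ 2) (𝓝[>] 0) atTop := by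
  have h1 : Tendsto (fun h : ℝ => 144 * h ^ 2) (𝓝[>] (0 : ℝ)) (𝓝[>] 0) := by
    refine tendsto_nhdsWithin_iff.2 ⟨?_, ?_⟩
    · exact ((by fun_prop : Continuous fun h : ℝ => 144 * h ^ 2).tendsto' 0 0
        (by norm_num)).mono_left nhdsWithin_le_nhds
    · filter_upwards [self_mem_nhdsWithin] with h hh
      have : (0 : ℝ) < h := hh
      exact Set.mem_Ioi.2 (by positivity)
  have h2 : Tendsto (fun h : ℝ => -log (144 * h ^ 2) / (8 * π) - 16) (𝓝[>] (0 : ℝ)) atTop := by
    refine tendsto_atTop_add_const_right _ _ ((tendsto_neg_atBot_atTop.comp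
      (Real.tendsto_log_nhdsGT_zero.comp h1)).atTop_div_const (by positivity))
  refine tendsto_atTop_mono' _ ?_ h2
  filter_upwards [Ioc_mem_nhdsGT (by norm_num : (0 : ℝ) < 1 / 50)] with h hh
  exact freeEnergy_second_diff hh.1 hh.2

end FA.Onsager
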