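import Mathlib.Analysis.SpecialFunctions.Trigonometric.DerivHyp
import Mathlib.Analysis.SpecialFunctions.Trigonometric.Basic
import Mathlib.LinearAlgebra.Matrix.NonsingularInverse
import Mathlib.LinearAlgebra.Matrix.Symmetric

/-!
# Hyperbolic rotations along a pairing

An involution pairs some indices and fixes the others. The matrix `hyp P t` turns each pair by the
hyperbolic angle `t`.
-/

set_option autoImplicit false

noncomputable section

open Matrix Finset Real
open scoped BigOperators

namespace FA.Onsager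

variable {ι : Type*} [Fintype ι] [DecidableEq ι]

/-- Turns each pair of the involution by a hyperbolic angle. -/
def hyp (P : ι → ι) (t : ℝ) : Matrix ι ι ℝ := Matrix.of fun b a =>
  if P a = a then (if b = a then 1 else 0)
  else (if b = a then cosh t else if b = P a then sinh t else 0)

omit [Fintype ι] in
theorem hyp_apply (P : ι → ι) (t : ℝ) (b a : ι) : hyp P t b a =
    if P a = a then (if b = a then 1 else 0)
    else (if b = a then cosh t else if b = P a then sinh t else 0) := rfl

/-- The image of a vector. -/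
theorem hyp_sum {M : Type*} [AddCommGroup M] [Module ℝ M] (P : ι → ι) (t : ℝ) (v : ι → M) (a : ι) :
    ∑ b, hyp P t b a • v b = if P a = a then v a else cosh t • v a + sinh t • v (P a) := by
  split_ifs with h
  · simp [hyp_apply, h]
  · simp [hyp_apply, h, ite_smul, Finset.sum_ite, Finset.filter_eq', Finset.filter_ne']

variable {P : ι → ι}

omit [Fintype ι] in
theorem hyp_transpose (hP : Function.Involutive P) (t : ℝ) : (hyp P t)ᵀ = hyp P t := by
  ext b a
  rw [transpose_apply, hyp_apply, hyp_apply]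
  have e : P a = b ↔ a = P b := ⟨fun h => by rw [← h, hP], fun h => by rw [h, hP]⟩
  by_cases hab : a = b
  · subst hab
    rfl
  · by_cases h : a = P b
    · have h' := e.2 h
      simp only [hab, Ne.symm hab, ← h, h', if_false, if_true]
    · have h' : b ≠ P a := fun h' => h (e.1 h'.symm)
      simp [hab, Ne.symm hab, h, h']

theorem hyp_mul_hyp (hP : Function.Involutive P) (t u : ℝ) :
    hyp P t * hyp P u = hyp P (t + u) := by
  ext b a
  rw [Matrix.mul_apply]
  simp_rw [mul_comm (hyp P t b _), ← smul_eq_mul]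
  rw [hyp_sum P u (fun c => hyp P t b c) a]
  by_cases h : P a = a
  · simp [hyp_apply, h]
  · simp only [hyp_apply, h, if_false, hP a, smul_eq_mul]
    by_cases hb : b = a
    · subst hb
      simp [Ne.symm h, cosh_add]
      ring
    · by_cases hb' : b = P a
      · subst hb'
        simp [h, Ne.symm h, sinh_add]
        ring
      · simp [hb, hb']

omit [Fintype ι] in
theorem hyp_zero (P : ι → ι) : hyp P 0 = 1 := by
  ext b a
  by_cases h : P a = a <;> by_cases hb : b = a <;>
    simp [hyp_apply, h, hb, Matrix.one_apply]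

theorem hyp_mul_neg (hP : Function.Involutive P) (t : ℝ) : hyp P t * hyp P (-t) = 1 := by
  rw [hyp_mul_hyp hP, add_neg_cancel, hyp_zero]

theorem hyp_sign (t : ℝ) (ε : ι → ℝ) (hε : ∀ a, ε a * ε a = 1)
    (hεP : ∀ a, P a ≠ a → ε (P a) = -ε a) :
    Matrix.diagonal ε * hyp P t * Matrix.diagonal ε = hyp P (-t) := by
  ext b a
  rw [Matrix.mul_diagonal, Matrix.diagonal_mul, hyp_apply, hyp_apply, Real.cosh_neg, Real.sinh_neg]
  by_cases h : P a = a
  · by_cases hb : b = a <;> simp [h, hb, hε]
  · by_cases hb : b = a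
    · subst hb
      simp only [h, if_true, if_false]
      linear_combination cosh t * hε b
    · by_cases hb' : b = P a
      · subst hb'
        simp only [h, if_true, if_false, hεP a h]
        linear_combination -sinh t * hε a
      · simp [h, hb, hb']

theorem det_hyp (hP : Function.Involutive P) (t : ℝ) (ε : ι → ℝ) (hε : ∀ a, ε a * ε a = 1)
    (hεP : ∀ a, P a ≠ a → ε (P a) = -ε a) : (hyp P t).det = 1 := by
  have h1 : (hyp P (-t)).det = (hyp P t).det := by
    rw [← hyp_sign t ε hε hεP, Matrix.det_mul, Matrix.det_mul]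
    have he : (Matrix.diagonal ε).det * (Matrix.diagonal ε).det = 1 := by
      rw [Matrix.det_diagonal, ← Finset.prod_mul_distrib]
      simp [hε]
    linear_combination (hyp P t).det * he
  have h2 := congrArg Matrix.det (hyp_mul_neg hP t)
  rw [Matrix.det_mul, Matrix.det_one, h1] at h2
  have h3 := congrArg Matrix.det (hyp_mul_hyp hP (t / 2) (t / 2))
  rw [Matrix.det_mul, add_halves] at h3
  nlinarith [mul_self_nonneg (hyp P (t / 2)).det]

/-- Rows and columns are bounded in total by `B`. -/
def AbsBound (M : Matrix ι ι ℝ) (B : ℝ) : Prop :=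
  (∀ i, ∑ j, |M i j| ≤ B) ∧ ∀ j, ∑ i, |M i j| ≤ B

omit [DecidableEq ι] in
theorem AbsBound.mul {M N : Matrix ι ι ℝ} {A B : ℝ} (hA : 0 ≤ A) (hB : 0 ≤ B) (hM : AbsBound M A)
    (hN : AbsBound N B) : AbsBound (M * N) (A * B) := by
  constructor <;> intro i
  · calc ∑ j, |(M * N) i j| ≤ ∑ j, ∑ k, |M i k| * |N k j| := by
          refine sum_le_sum fun j _ => ?_
          simp only [Matrix.mul_apply, ← abs_mul]
          exact abs_sum_le_sum_abs _ _
      _ = ∑ k, |M i k| * ∑ j, |N k j| := by rw [sum_comm]; simp [mul_sum]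
      _ ≤ ∑ k, |M i k| * B := by gcongr; exact hN.1 _
      _ = (∑ k, |M i k|) * B := by rw [sum_mul]
      _ ≤ A * B := by gcongr; exact hM.1 i
  · calc ∑ j, |(M * N) j i| ≤ ∑ j, ∑ k, |M j k| * |N k i| := by
          refine sum_le_sum fun j _ => ?_
          simp only [Matrix.mul_apply, ← abs_mul]
          exact abs_sum_le_sum_abs _ _
      _ = ∑ k, (∑ j, |M j k|) * |N k i| := by rw [sum_comm]; simp [sum_mul]
      _ ≤ ∑ k, A * |N k i| := by gcongr; exact hM.2 _
      _ = A * ∑ k, |N k i| := by rw [mul_sum]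
      _ ≤ A * B := by gcongr; exact hN.2 i

theorem absBound_one : AbsBound (1 : Matrix ι ι ℝ) 1 := by
  constructor <;> intro i <;> simp [Matrix.one_apply, apply_ite abs]

theorem AbsBound.pow {M : Matrix ι ι ℝ} {A : ℝ} (hA : 0 ≤ A) (hM : AbsBound M A) :
    ∀ k : ℕ, AbsBound (M ^ k) (A ^ k)
  | 0 => by simpa using absBound_one
  | k + 1 => by
    rw [pow_succ, pow_succ]
    exact AbsBound.mul (by positivity) hA (AbsBound.pow hA hM k) hM

theorem absBound_hyp (hP : Function.Involutive P) (t : ℝ) : AbsBound (hyp P t) (exp |t|) := by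
  have hcol : ∀ j, ∑ i, |hyp P t i j| ≤ exp |t| := fun j => by
    by_cases h : P j = j
    · simp [hyp_apply, h, apply_ite abs, one_le_exp_iff]
    · simp only [hyp_apply, h, if_false, apply_ite abs, abs_zero]
      rw [Finset.sum_ite, Finset.sum_ite]
      simp [Finset.filter_eq', Finset.filter_ne', h, abs_sinh, abs_of_pos (cosh_pos t),
        ← cosh_add_sinh, cosh_abs]
  refine ⟨fun i => ?_, hcol⟩
  have := hcol i
  conv_lhs => rw [← hyp_transpose hP t]
  simpa using this

omit [DecidableEq ι] in
/-- An eigenvalue is bounded by the row sums. -/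
theorem abs_le_of_mulVec {M : Matrix ι ι ℝ} {B : ℝ} (hM : AbsBound M B) {v : ι → ℝ} (hv : v ≠ 0)
    {μ : ℝ} (h : M *ᵥ v = μ • v) : |μ| ≤ B := by
  obtain ⟨i₀, hi₀⟩ := Function.ne_iff.1 hv
  obtain ⟨i, -, hi⟩ := Finset.exists_max_image univ (fun i => |v i|) ⟨i₀, mem_univ _⟩
  have hpos : 0 < |v i| := lt_of_lt_of_le (abs_pos.2 hi₀) (hi i₀ (mem_univ _))
  refine le_of_mul_le_mul_right ?_ hpos
  calc |μ| * |v i| = |(M *ᵥ v) i| := by rw [h, Pi.smul_apply, smul_eq_mul, abs_mul]
    _ ≤ ∑ j, |M i j| * |v j| := by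
        simp only [Matrix.mulVec, dotProduct, ← abs_mul]
        exact abs_sum_le_sum_abs _ _
    _ ≤ ∑ j, |M i j| * |v i| :=
        sum_le_sum fun j _ => mul_le_mul_of_nonneg_left (hi j (mem_univ _)) (abs_nonneg _)
    _ = (∑ j, |M i j|) * |v i| := by rw [sum_mul]
    _ ≤ B * |v i| := by gcongr; exact hM.1 i

/-- The total of the absolute entries. -/
def absTotal (M : Matrix ι ι ℝ) : ℝ := ∑ i, ∑ j, |M i j|

omit [DecidableEq ι] in
theorem abs_trace_le_absTotal (M : Matrix ι ι ℝ) : |M.trace| ≤ absTotal M :=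
  (abs_sum_le_sum_abs _ _).trans
    (sum_le_sum fun i _ => single_le_sum (fun j _ => abs_nonneg (M i j)) (mem_univ i))

omit [DecidableEq ι] in
theorem absTotal_add (M N : Matrix ι ι ℝ) : absTotal (M + N) ≤ absTotal M + absTotal N := by
  simp only [absTotal, ← sum_add_distrib]
  gcongr with i _ j _
  exact abs_add_le _ _

omit [DecidableEq ι] in
theorem absTotal_mul_left {M N : Matrix ι ι ℝ} {B : ℝ} (hB : AbsBound M B) :
    absTotal (M * N) ≤ B * absTotal N := by
  calc absTotal (M * N) ≤ ∑ i, ∑ j, ∑ k, |M i k| * |N k j| := by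
        unfold absTotal
        gcongr with i _ j _
        simp only [Matrix.mul_apply, ← abs_mul]
        exact abs_sum_le_sum_abs _ _
    _ = ∑ k, (∑ i, |M i k|) * ∑ j, |N k j| := by
        simp_rw [sum_mul_sum]
        conv_lhs => enter [2, i]; rw [sum_comm]
        rw [sum_comm]
    _ ≤ ∑ k, B * ∑ j, |N k j| := by gcongr with k; exact hB.2 k
    _ = B * absTotal N := by rw [absTotal, mul_sum]

omit [DecidableEq ι] in
theorem absTotal_mul_right {M N : Matrix ι ι ℝ} {B : ℝ} (hB : AbsBound N B) :
    absTotal (M * N) ≤ absTotal M * B := by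
  calc absTotal (M * N) ≤ ∑ i, ∑ j, ∑ k, |M i k| * |N k j| := by
        unfold absTotal
        gcongr with i _ j _
        simp only [Matrix.mul_apply, ← abs_mul]
        exact abs_sum_le_sum_abs _ _
    _ = ∑ i, ∑ k, |M i k| * ∑ j, |N k j| := by
        refine sum_congr rfl fun i _ => ?_
        rw [sum_comm]
        simp [mul_sum]
    _ ≤ ∑ i, ∑ k, |M i k| * B := by gcongr with i _ k; exact hB.1 k
    _ = absTotal M * B := by simp only [absTotal, sum_mul]

end FA.Onsager
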