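import Fermat.Agent.Onsager.Moments
import Mathlib.Analysis.Matrix.Spectrum
import Mathlib.Topology.ContinuousMap.Weierstrass

/-!
# The trace of a power of the transfer matrix

The rotation is similar to a positive symmetric matrix. The limit of its moments determines the
limit of the mean absolute logarithm of its eigenvalues, and the trace formula turns this into the
exponential rate of the trace of the transfer matrix.
-/

set_option autoImplicit false

noncomputable section

open Matrix Finset Real Filter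
open scoped BigOperators Topology

namespace FA.Onsager

variable {n : ℕ}

/-- A symmetric matrix similar to the rotation. -/
def symRotation (n : ℕ) (a b : ℝ) : Matrix (Idx n) (Idx n) ℝ :=
  hyp sitePair (linkAngle b / 2) * hyp bondPair (2 * a) * hyp sitePair (linkAngle b / 2)

theorem isHermitian_symRotation (n : ℕ) (a b : ℝ) : (symRotation n a b).IsHermitian := by
  rw [Matrix.IsHermitian, Matrix.conjTranspose_eq_transpose_of_trivial, symRotation,
    Matrix.transpose_mul, Matrix.transpose_mul, hyp_transpose sitePair_involutive,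
    hyp_transpose bondPair_involutive, Matrix.mul_assoc]

/-- The eigenvalues of the rotation. -/
def eig (n : ℕ) (a b : ℝ) : Idx n → ℝ := (isHermitian_symRotation n a b).eigenvalues

theorem absBound_symRotation (n : ℕ) (a b : ℝ) : AbsBound (symRotation n a b) (growth a b) := by
  have h : growth a b = exp |linkAngle b / 2| * exp |2 * a| * exp |linkAngle b / 2| := by
    rw [growth, ← exp_add, ← exp_add]
    congr 1
    rw [abs_div, abs_two]
    ring
  rw [h]
  exact ((absBound_hyp sitePair_involutive _).mul (exp_pos _).le (exp_pos _).le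
    (absBound_hyp bondPair_involutive _)).mul (by positivity) (exp_pos _).le
    (absBound_hyp sitePair_involutive _)

theorem symRotation_mul_neg (n : ℕ) (a b : ℝ) :
    hyp sitePair (-linkAngle b / 2) * hyp bondPair (-(2 * a)) * hyp sitePair (-linkAngle b / 2) *
      symRotation n a b = 1 := by
  have hp : hyp (sitePair (n := n)) (-linkAngle b / 2) * hyp sitePair (linkAngle b / 2) = 1 := by
    rw [hyp_mul_hyp sitePair_involutive, show -linkAngle b / 2 + linkAngle b / 2 = 0 by ring,
      hyp_zero]
  have hq : hyp (bondPair (n := n)) (-(2 * a)) * hyp bondPair (2 * a) = 1 := by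
    rw [hyp_mul_hyp bondPair_involutive, neg_add_cancel, hyp_zero]
  rw [symRotation]
  simp only [Matrix.mul_assoc]
  rw [← Matrix.mul_assoc (hyp sitePair (-linkAngle b / 2)) (hyp sitePair (linkAngle b / 2)), hp,
    Matrix.one_mul, ← Matrix.mul_assoc (hyp bondPair (-(2 * a))), hq, Matrix.one_mul, hp]

theorem eig_pos_mem (n : ℕ) (a b : ℝ) (i : Idx n) :
    0 < eig n a b i ∧ (growth a b)⁻¹ ≤ eig n a b i ∧ eig n a b i ≤ growth a b := by
  set hA := isHermitian_symRotation n a b
  set v : Idx n → ℝ := ⇑(hA.eigenvectorBasis i) with hvdef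
  set μ := eig n a b i with hμ
  have hv : v ≠ 0 := by
    intro h
    exact hA.eigenvectorBasis.orthonormal.ne_zero i ((WithLp.ofLp_eq_zero 2).1 h)
  have he : symRotation n a b *ᵥ v = μ • v := hA.mulVec_eigenvectorBasis i
  have hup : |μ| ≤ growth a b := abs_le_of_mulVec (absBound_symRotation n a b) hv he
  set S' := hyp (sitePair (n := n)) (-linkAngle b / 2) * hyp bondPair (-(2 * a)) *
    hyp sitePair (-linkAngle b / 2) with hS'
  have hS'B : AbsBound S' (growth a b) := by
    have h := absBound_symRotation n (-a) b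
    have hg : growth a b = exp |-linkAngle b / 2| * exp |-(2 * a)| * exp |-linkAngle b / 2| := by
      rw [growth, ← exp_add, ← exp_add]
      congr 1
      rw [abs_neg, abs_div, abs_neg, abs_two]
      ring
    rw [hg]
    exact ((absBound_hyp sitePair_involutive _).mul (exp_pos _).le (exp_pos _).le
      (absBound_hyp bondPair_involutive _)).mul (by positivity) (exp_pos _).le
      (absBound_hyp sitePair_involutive _)
  have hinv : v = μ • (S' *ᵥ v) := by
    calc v = (S' * symRotation n a b) *ᵥ v := by rw [hS', symRotation_mul_neg, Matrix.one_mulVec]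
      _ = μ • (S' *ᵥ v) := by rw [← Matrix.mulVec_mulVec, he, Matrix.mulVec_smul]
  have hne : μ ≠ 0 := fun h => hv (by rw [hinv, h, zero_smul])
  have he' : S' *ᵥ v = μ⁻¹ • v := by
    conv_rhs => rw [hinv, smul_smul, inv_mul_cancel₀ hne, one_smul]
  have hlo := abs_le_of_mulVec hS'B hv he'
  have hnn : 0 ≤ μ := by
    set A := hyp (sitePair (n := n)) (linkAngle b / 2) * hyp bondPair a with hA'
    have hfac : symRotation n a b = A * Aᵀ := by
      rw [hA', Matrix.transpose_mul, hyp_transpose bondPair_involutive,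
        hyp_transpose sitePair_involutive, symRotation, Matrix.mul_assoc (hyp sitePair _),
        Matrix.mul_assoc (hyp sitePair _), ← Matrix.mul_assoc (hyp bondPair a),
        hyp_mul_hyp bondPair_involutive, ← two_mul]
    have h1 : v ⬝ᵥ (symRotation n a b *ᵥ v) = (v ᵥ* A) ⬝ᵥ (v ᵥ* A) := by
      rw [hfac, ← Matrix.mulVec_mulVec, Matrix.mulVec_transpose, Matrix.dotProduct_mulVec]
    rw [he, dotProduct_smul, smul_eq_mul] at h1
    have h2 : 0 < v ⬝ᵥ v := by
      obtain ⟨j, hj⟩ := Function.ne_iff.1 hv
      exact sum_pos' (fun k _ => mul_self_nonneg (v k)) ⟨j, mem_univ j, mul_self_pos.2 hj⟩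
    have h3 : 0 ≤ (v ᵥ* A) ⬝ᵥ (v ᵥ* A) := sum_nonneg fun k _ => mul_self_nonneg _
    nlinarith
  have hpos : 0 < μ := lt_of_le_of_ne hnn (Ne.symm hne)
  rw [abs_of_pos hpos] at hup
  rw [abs_of_pos (inv_pos.2 hpos)] at hlo
  exact ⟨hpos, inv_le_of_inv_le₀ hpos hlo, hup⟩

theorem symRotation_eq_conj (n : ℕ) (a b : ℝ) (m : ℕ) :
    ∃ U V : Matrix (Idx n) (Idx n) ℝ, V * U = 1 ∧
      symRotation n a b ^ m = U * Matrix.diagonal (fun i => eig n a b i ^ m) * V := by
  set hA := isHermitian_symRotation n a b
  refine ⟨hA.eigenvectorUnitary, star (hA.eigenvectorUnitary : Matrix (Idx n) (Idx n) ℝ),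
    Unitary.coe_star_mul_self _, ?_⟩
  conv_lhs => rw [hA.spectral_theorem]
  rw [← map_pow, Matrix.diagonal_pow, Unitary.conjStarAlgAut_apply]
  rfl

theorem symRotation_conj (n : ℕ) (a b : ℝ) (m : ℕ) :
    rotation n a b ^ m = hyp sitePair (-linkAngle b / 2) * symRotation n a b ^ m *
      hyp sitePair (linkAngle b / 2) := by
  have hVU : hyp (sitePair (n := n)) (linkAngle b / 2) * hyp sitePair (-linkAngle b / 2) = 1 := by
    rw [hyp_mul_hyp sitePair_involutive, show linkAngle b / 2 + -linkAngle b / 2 = 0 by ring,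
      hyp_zero]
  have hUV : hyp (sitePair (n := n)) (-linkAngle b / 2) * hyp sitePair (linkAngle b / 2) = 1 :=
    mul_eq_one_comm.1 hVU
  have h1 : rotation n a b = hyp sitePair (-linkAngle b / 2) * symRotation n a b *
      hyp sitePair (linkAngle b / 2) := by
    rw [symRotation]
    simp only [← Matrix.mul_assoc]
    rw [hUV, Matrix.one_mul, Matrix.mul_assoc, hyp_mul_hyp sitePair_involutive, add_halves,
      rotation]
  induction m with
  | zero => simp [hUV]
  | succ m ih =>
    rw [pow_succ, ih, h1, pow_succ]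
    simp only [Matrix.mul_assoc]
    rw [← Matrix.mul_assoc (hyp sitePair (linkAngle b / 2)) (hyp sitePair (-linkAngle b / 2)), hVU,
      Matrix.one_mul]

theorem trace_rotation_pow (n : ℕ) (a b : ℝ) (m : ℕ) :
    (rotation n a b ^ m).trace = ∑ i, eig n a b i ^ m := by
  obtain ⟨U, V, hVU, h⟩ := symRotation_eq_conj n a b m
  rw [symRotation_conj, Matrix.trace_mul_cycle, hyp_mul_hyp sitePair_involutive,
    show linkAngle b / 2 + -linkAngle b / 2 = 0 by ring, hyp_zero, Matrix.one_mul, h,
    Matrix.trace_mul_cycle, hVU, Matrix.one_mul, Matrix.trace_diagonal]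

theorem det_one_add_rotation_pow (n : ℕ) (a b : ℝ) (m : ℕ) :
    (1 + rotation n a b ^ m).det = ∏ i, (1 + eig n a b i ^ m) := by
  obtain ⟨U, V, hVU, h⟩ := symRotation_eq_conj n a b m
  have hUV : U * V = 1 := mul_eq_one_comm.1 hVU
  have hpq : hyp (sitePair (n := n)) (-linkAngle b / 2) * hyp sitePair (linkAngle b / 2) = 1 := by
    rw [hyp_mul_hyp sitePair_involutive, show -linkAngle b / 2 + linkAngle b / 2 = 0 by ring,
      hyp_zero]
  have e : (1 : Matrix (Idx n) (Idx n) ℝ) + rotation n a b ^ m =
      (hyp sitePair (-linkAngle b / 2) * U) * (1 + Matrix.diagonal fun i => eig n a b i ^ m) *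
        (V * hyp sitePair (linkAngle b / 2)) := by
    rw [Matrix.mul_add, Matrix.mul_one, Matrix.add_mul, symRotation_conj, h]
    congr 1
    · simp only [Matrix.mul_assoc]
      rw [← Matrix.mul_assoc U, hUV, Matrix.one_mul, hpq]
    · simp only [Matrix.mul_assoc]
  have hd : (hyp (sitePair (n := n)) (-linkAngle b / 2) * U).det *
      (V * hyp sitePair (linkAngle b / 2)).det = 1 := by
    rw [← Matrix.det_mul, Matrix.mul_assoc, ← Matrix.mul_assoc U, hUV, Matrix.one_mul, hpq,
      Matrix.det_one]
  rw [e, Matrix.det_mul, Matrix.det_mul, mul_right_comm, hd, one_mul, ← Matrix.diagonal_one,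
    Matrix.diagonal_add, Matrix.det_diagonal]

theorem sum_log_eig (n : ℕ) (a b : ℝ) : ∑ i, log (eig n a b i) = 0 := by
  have hsite : ∀ t : ℝ, (hyp (sitePair (n := n)) t).det = 1 := fun t =>
    det_hyp sitePair_involutive t (fun c => if c.1 then -1 else 1)
      (fun c => by split_ifs <;> norm_num) fun c _ => by
        obtain ⟨e, i⟩ := c
        cases e <;> simp [sitePair]
  have hbond : ∀ t : ℝ, (hyp (bondPair (n := n)) t).det = 1 := fun t =>
    det_hyp bondPair_involutive t (fun c => if c.1 then -1 else 1)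
      (fun c => by split_ifs <;> norm_num) fun c hc => by
        obtain ⟨e, i⟩ := c
        cases e
        · by_cases h : 0 < (i : ℕ)
          · simp [bondPair, h]
          · simp [bondPair, h] at hc
        · by_cases h : (i : ℕ) + 1 < n
          · simp [bondPair, h]
          · simp [bondPair, h] at hc
  have h := (isHermitian_symRotation n a b).det_eq_prod_eigenvalues
  have h2 : (symRotation n a b).det = 1 := by
    rw [symRotation, Matrix.det_mul, Matrix.det_mul, hsite, hbond, one_mul, one_mul]
  rw [h2] at h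
  rw [← Real.log_prod fun i _ => (eig_pos_mem n a b i).1.ne']
  simp only [RCLike.ofReal_real_eq_id, id_eq] at h
  rw [show ∏ i, eig n a b i = 1 from h.symm, log_one]

/-- The mean absolute logarithm decides the trace up to a bounded amount per site. -/
theorem log_trace_transfer {a b : ℝ} (hb : 0 < b) (n m : ℕ) :
    |2 * log (transfer n a b ^ m).trace - m * n * log (2 * sinh (2 * b)) -
      m / 2 * (∑ i, |log (eig n a b i)|)| ≤ 2 * n * log 2 := by
  have hs : 0 < 2 * sinh (2 * b) := mul_pos two_pos (sinh_pos_iff.2 (by linarith))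
  have h := congrArg log (trace_transfer_sq (n := n) (a := a) hb m)
  rw [det_one_add_rotation_pow, log_pow, log_mul (by positivity)
    (prod_ne_zero_iff.2 fun i _ => (add_pos one_pos (pow_pos (eig_pos_mem n a b i).1 m)).ne'),
    log_pow, log_pow, log_prod fun i _ => (add_pos one_pos (pow_pos (eig_pos_mem n a b i).1 m)).ne']
    at h
  push_cast at h
  have hbd : ∀ i, max ((m : ℝ) * log (eig n a b i)) 0 ≤ log (1 + eig n a b i ^ m) ∧
      log (1 + eig n a b i ^ m) ≤ max ((m : ℝ) * log (eig n a b i)) 0 + log 2 := fun i => by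
    have hx := pow_pos (eig_pos_mem n a b i).1 m
    rw [← log_pow]
    refine ⟨max_le (log_le_log hx (by linarith)) (log_nonneg (by linarith)), ?_⟩
    rcases le_or_gt (eig n a b i ^ m) 1 with h1 | h1
    · exact (log_le_log (by linarith) (by linarith : 1 + eig n a b i ^ m ≤ 2)).trans
        (le_add_of_nonneg_left (le_max_right _ _))
    · rw [max_eq_left (log_nonneg h1.le), ← log_mul hx.ne' two_ne_zero]
      exact log_le_log (by linarith) (by linarith)
  have hmax : ∑ i, max ((m : ℝ) * log (eig n a b i)) 0 = m / 2 * ∑ i, |log (eig n a b i)| := by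
    have e : ∀ i, max ((m : ℝ) * log (eig n a b i)) 0 =
        (m : ℝ) / 2 * log (eig n a b i) + (m : ℝ) / 2 * |log (eig n a b i)| := fun i => by
      rcases le_total 0 (log (eig n a b i)) with h1 | h1
      · rw [max_eq_left (by positivity), abs_of_nonneg h1]
        ring
      · rw [max_eq_right (mul_nonpos_of_nonneg_of_nonpos (Nat.cast_nonneg m) h1), abs_of_nonpos h1]
        ring
    rw [sum_congr rfl fun i _ => e i, sum_add_distrib, ← mul_sum, sum_log_eig, ← mul_sum]
    ring
  have hlo := sum_le_sum fun i (_ : i ∈ univ) => (hbd i).1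
  have hhi := sum_le_sum fun i (_ : i ∈ univ) => (hbd i).2
  rw [sum_add_distrib, sum_const, nsmul_eq_mul, hmax] at hhi
  rw [hmax] at hlo
  simp only [card_univ, Fintype.card_prod, Fintype.card_bool, Fintype.card_fin] at hhi
  push_cast at hhi
  rw [abs_le]
  constructor <;> nlinarith [log_pos one_lt_two, Nat.cast_nonneg (α := ℝ) n]

/-! ### The limit -/

theorem tendsto_mean_continuous {a b : ℝ} {g : ℝ → ℝ}
    (hg : ContinuousOn g (Set.Icc (growth a b)⁻¹ (growth a b))) :
    Tendsto (fun k : ℕ => (∑ i, g (eig (k + 1) a b i)) / ((k + 1 : ℕ) : ℝ)) atTop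
      (𝓝 (∫ u in (0 : ℝ)..1, (g (exp (dispersion a b (2 * π * u))) +
        g (exp (-dispersion a b (2 * π * u)))))) := by
  set γ : ℝ → ℝ := fun u => dispersion a b (2 * π * u) with hγ
  have hγc : Continuous γ := (continuous_dispersion a b).comp (by fun_prop)
  have hmem : ∀ u, exp (γ u) ∈ Set.Icc (growth a b)⁻¹ (growth a b) ∧
      exp (-γ u) ∈ Set.Icc (growth a b)⁻¹ (growth a b) := fun u => by
    have h1 := dispersion_nonneg a b (2 * π * u)
    have h2 := dispersion_le a b (2 * π * u)
    simp only [Set.mem_Icc, growth, ← exp_neg, exp_le_exp, hγ]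
    exact ⟨⟨by linarith, by linarith⟩, by linarith, by linarith⟩
  have hint : IntervalIntegrable (fun u => g (exp (γ u)) + g (exp (-γ u)))
      MeasureTheory.volume 0 1 :=
    (((hg.comp_continuous (Real.continuous_exp.comp hγc) fun u => (hmem u).1).add
      (hg.comp_continuous (Real.continuous_exp.comp hγc.neg)
        fun u => (hmem u).2))).intervalIntegrable
      _ _
  rw [Metric.tendsto_atTop]
  intro ε hε
  obtain ⟨p, hp⟩ := exists_polynomial_near_of_continuousOn _ _ g hg (ε / 6) (by positivity)
  have hP : Tendsto (fun k : ℕ => (∑ i, p.eval (eig (k + 1) a b i)) / ((k + 1 : ℕ) : ℝ)) atTop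
      (𝓝 (∫ u in (0 : ℝ)..1, (p.eval (exp (γ u)) + p.eval (exp (-γ u))))) := by
    have hlim : (∫ u in (0 : ℝ)..1, (p.eval (exp (γ u)) + p.eval (exp (-γ u)))) =
        ∑ m ∈ range (p.natDegree + 1), p.coeff m *
          ∫ u in (0 : ℝ)..1, 2 * cosh (m * γ u) := by
      rw [← sum_congr rfl fun m _ => intervalIntegral.integral_const_mul (p.coeff m)
        (fun u => 2 * cosh ((m : ℝ) * γ u)), ← intervalIntegral.integral_finsetSum fun m _ =>
        (Continuous.intervalIntegrable (by fun_prop) _ _)]
      refine intervalIntegral.integral_congr fun u _ => ?_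
      rw [Polynomial.eval_eq_sum_range, Polynomial.eval_eq_sum_range, ← sum_add_distrib]
      refine sum_congr rfl fun m _ => ?_
      rw [← exp_nat_mul, ← exp_nat_mul, cosh_eq, mul_neg]
      ring
    rw [hlim]
    refine (tendsto_finsetSum _ fun m _ => (tendsto_moment a b m).const_mul (p.coeff m)).congr
      fun k => ?_
    simp only [trace_rotation_pow, ← mul_div_assoc, ← sum_div, mul_sum,
      Polynomial.eval_eq_sum_range]
    rw [sum_comm]
  obtain ⟨N, hN⟩ := Metric.tendsto_atTop.1 hP (ε / 6) (by positivity)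
  refine ⟨N, fun k hk => ?_⟩
  have h1 := hN k hk
  have h2 : |(∑ i, g (eig (k + 1) a b i)) / ((k + 1 : ℕ) : ℝ) -
      (∑ i, p.eval (eig (k + 1) a b i)) / ((k + 1 : ℕ) : ℝ)| ≤ ε / 3 := by
    rw [← sub_div, ← sum_sub_distrib, abs_div, Nat.abs_cast, div_le_iff₀ (by positivity)]
    refine (abs_sum_le_sum_abs _ _).trans ((sum_le_sum fun i _ => show _ ≤ ε / 6 from ?_).trans
      (le_of_eq ?_))
    · rw [abs_sub_comm]
      exact (hp _ ⟨(eig_pos_mem (k + 1) a b i).2.1, (eig_pos_mem (k + 1) a b i).2.2⟩).le
    · simp only [sum_const, card_univ, Fintype.card_prod, Fintype.card_bool, Fintype.card_fin,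
        nsmul_eq_mul]
      push_cast
      ring
  have hintP : IntervalIntegrable (fun u => p.eval (exp (γ u)) + p.eval (exp (-γ u)))
      MeasureTheory.volume 0 1 :=
    ((p.continuous.comp (Real.continuous_exp.comp hγc)).add
      (p.continuous.comp (Real.continuous_exp.comp hγc.neg))).intervalIntegrable _ _
  have h3 : |(∫ u in (0 : ℝ)..1, (p.eval (exp (γ u)) + p.eval (exp (-γ u)))) -
      ∫ u in (0 : ℝ)..1, (g (exp (γ u)) + g (exp (-γ u)))| ≤ ε / 3 := by
    rw [← intervalIntegral.integral_sub hintP hint, ← Real.norm_eq_abs]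
    refine (intervalIntegral.norm_integral_le_of_norm_le_const (C := ε / 3) fun u _ => ?_).trans
      (by norm_num)
    rw [Real.norm_eq_abs]
    have a1 := abs_lt.1 (hp _ (hmem u).1)
    have a2 := abs_lt.1 (hp _ (hmem u).2)
    rw [abs_le]
    constructor <;> linarith [a1.1, a1.2, a2.1, a2.2]
  rw [Real.dist_eq] at h1 ⊢
  rw [abs_lt] at h1
  rw [abs_le] at h2 h3
  rw [abs_lt]
  simp only [hγ] at h1 h3 ⊢
  constructor <;> linarith [h1.1, h1.2, h2.1, h2.2, h3.1, h3.2]

theorem tendsto_mean_abs_log (a b : ℝ) :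
    Tendsto (fun n : ℕ => (∑ i, |log (eig n a b i)|) / n) atTop
      (𝓝 (2 * ∫ u in (0 : ℝ)..1, dispersion a b (2 * π * u))) := by
  have hg : ContinuousOn (fun x => |log x|) (Set.Icc (growth a b)⁻¹ (growth a b)) :=
    (Real.continuousOn_log.mono fun x hx =>
      (lt_of_lt_of_le (inv_pos.2 (exp_pos _)) hx.1).ne').abs
  have h := tendsto_mean_continuous hg
  rw [← intervalIntegral.integral_const_mul]
  refine (tendsto_add_atTop_iff_nat 1).1 ?_
  convert h using 2
  refine intervalIntegral.integral_congr fun u _ => ?_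
  simp only [log_exp, abs_neg, abs_of_nonneg (dispersion_nonneg a b _)]
  ring

end FA.Onsager
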