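import Fermat.Agent.Onsager.Limit
import Mathlib.Analysis.SpecialFunctions.Integrals.PosLogEqCircleAverage
import Mathlib.MeasureTheory.Integral.IntervalIntegral.Periodic

/-!
# The free energy of the square lattice

A box with free edges and the trace of a power of the transfer matrix differ by one row of
interactions. Jensen's formula turns the mean dispersion into Onsager's double integral.
-/

set_option autoImplicit false

noncomputable section

open Matrix Finset Real Filter MeasureTheory
open scoped BigOperators Topology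

namespace FA.Onsager

variable {n : ℕ}

/-- The interaction of neighbouring rows. -/
def crossTerm (σ τ : Row n) : ℝ := ∑ i, sgn (σ i) * sgn (τ i)

/-- The energy of a box with free edges. -/
def boxEnergy (a b : ℝ) {m : ℕ} (s : Fin m → Row n) : ℝ :=
  a * ∑ j, ∑ i, bondTerm (s j) i +
    b * ∑ j : Fin m, if h : (j : ℕ) + 1 < m then crossTerm (s j) (s ⟨(j : ℕ) + 1, h⟩) else 0

/-- The partition sum of a box with free edges. -/
def boxSum (n m : ℕ) (a b : ℝ) : ℝ := ∑ s : Fin m → Row n, exp (boxEnergy a b s)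

theorem linkMat_apply (b : ℝ) (σ τ : Row n) : linkMat n b σ τ = exp (b * crossTerm σ τ) := by
  simp only [linkMat, Matrix.of_apply, weight, Pi.add_apply, sgn_add, crossTerm, mul_sum, exp_sum]

theorem transfer_apply (a b : ℝ) (σ τ : Row n) :
    transfer n a b σ τ = exp (a * ∑ i, bondTerm σ i) * exp (b * crossTerm σ τ) := by
  rw [transfer, rowMat, mono_mul_apply, add_zero, linkMat_apply]

theorem boxEnergy_cons (a b : ℝ) {m : ℕ} (σ : Row n) (s : Fin (m + 1) → Row n) :
    boxEnergy a b (Fin.cons σ s : Fin (m + 2) → Row n) =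
      a * ∑ i, bondTerm σ i + b * crossTerm σ (s 0) + boxEnergy a b s := by
  unfold boxEnergy
  rw [Fin.sum_univ_succ (n := m + 1), Fin.sum_univ_succ (n := m + 1), dif_pos (by simp)]
  have e : ∀ j : Fin (m + 1), (if h : ((j.succ : Fin (m + 2)) : ℕ) + 1 < m + 2 then
      crossTerm ((Fin.cons σ s : Fin (m + 2) → Row n) j.succ)
        ((Fin.cons σ s : Fin (m + 2) → Row n) ⟨((j.succ : Fin (m + 2)) : ℕ) + 1, h⟩) else 0) =
      if h : (j : ℕ) + 1 < m + 1 then crossTerm (s j) (s ⟨(j : ℕ) + 1, h⟩) else 0 := fun j => by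
    by_cases h : (j : ℕ) + 1 < m + 1
    · rw [dif_pos (by simp only [Fin.val_succ]; omega), dif_pos h]
      rfl
    · rw [dif_neg (by simp only [Fin.val_succ]; omega), dif_neg h]
  rw [sum_congr rfl fun j _ => e j]
  simp only [Fin.cons_zero, Fin.cons_succ]
  rw [show (⟨((0 : Fin (m + 2)) : ℕ) + 1, by simp⟩ : Fin (m + 2)) = Fin.succ 0 from
      Fin.ext (by simp),
    Fin.cons_succ]
  ring

theorem sum_cons (a b : ℝ) : ∀ (m : ℕ) (σ : Row n),
    ∑ s : Fin m → Row n, exp (boxEnergy a b (Fin.cons σ s : Fin (m + 1) → Row n)) =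
      ∑ τ, (transfer n a b ^ m * rowMat n a) σ τ
  | 0, σ => by
    simp [boxEnergy, rowMat, mono]
  | m + 1, σ => by
    rw [← (Fin.consEquiv fun _ : Fin (m + 1) => Row n).sum_comp, Fintype.sum_prod_type, pow_succ',
      Matrix.mul_assoc]
    have e : ∀ x, (∑ s : Fin m → Row n, exp (boxEnergy a b (Fin.cons σ
        (Fin.cons x s : Fin (m + 1) → Row n) : Fin (m + 2) → Row n))) =
        ∑ τ, transfer n a b σ x * (transfer n a b ^ m * rowMat n a) x τ := fun x => by
      rw [← mul_sum, ← sum_cons a b m x, mul_sum]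
      refine sum_congr rfl fun s _ => ?_
      rw [boxEnergy_cons, Fin.cons_zero, transfer_apply, exp_add, exp_add]
    refine (sum_congr rfl fun x _ => e x).trans ?_
    rw [Finset.sum_comm]
    refine sum_congr rfl fun τ _ => ?_
    rw [Matrix.mul_apply (M := transfer n a b)]

theorem boxSum_eq (a b : ℝ) (m : ℕ) :
    boxSum n (m + 1) a b = ∑ σ, ∑ τ, (transfer n a b ^ m * rowMat n a) σ τ := by
  rw [boxSum, ← (Fin.consEquiv fun _ : Fin (m + 1) => Row n).sum_comp, Fintype.sum_prod_type]
  exact sum_congr rfl fun σ _ => sum_cons a b m σ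

theorem entry_nonneg (a b : ℝ) : ∀ (m : ℕ) (σ τ : Row n),
    0 ≤ (transfer n a b ^ m * rowMat n a) σ τ
  | 0, σ, τ => by
    simp only [pow_zero, Matrix.one_mul, rowMat, mono, Matrix.of_apply]
    split_ifs <;> positivity
  | m + 1, σ, τ => by
    rw [pow_succ', Matrix.mul_assoc, Matrix.mul_apply]
    exact sum_nonneg fun x _ =>
      mul_nonneg (by rw [transfer_apply]; positivity) (entry_nonneg a b m x τ)

theorem abs_crossTerm_le (σ τ : Row n) : |crossTerm σ τ| ≤ n := by
  refine (abs_sum_le_sum_abs _ _).trans (le_of_eq ?_)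
  rw [show (∑ i, |sgn (σ i) * sgn (τ i)|) = ∑ _i : Fin n, (1 : ℝ) from sum_congr rfl fun i _ => by
    rcases sgn_mul_sgn (σ i) (τ i) with h | h <;> simp [h]]
  simp

theorem boxSum_pos (n m : ℕ) (a b : ℝ) : 0 < boxSum n m a b :=
  sum_pos (fun _ _ => exp_pos _) univ_nonempty

/-- Closing the box costs one row of interactions. -/
theorem log_trace_sub_log_boxSum {b : ℝ} (hb : 0 ≤ b) (a : ℝ) (n m : ℕ) :
    |log (transfer n a b ^ (m + 1)).trace - log (boxSum n (m + 1) a b)| ≤ b * n := by
  set M := transfer n a b ^ m * rowMat n a with hM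
  have htr : (transfer n a b ^ (m + 1)).trace = ∑ σ, ∑ τ, M σ τ * linkMat n b τ σ := by
    rw [pow_succ, transfer, ← Matrix.mul_assoc, ← transfer, ← hM, Matrix.trace]
    simp [Matrix.mul_apply]
  have hsum : boxSum n (m + 1) a b = ∑ σ, ∑ τ, M σ τ := boxSum_eq a b m
  have hk : ∀ σ τ : Row n, exp (-(b * n)) ≤ linkMat n b σ τ ∧ linkMat n b σ τ ≤ exp (b * n) := by
    intro σ τ
    have h := abs_le.1 (abs_crossTerm_le σ τ)
    rw [linkMat_apply, exp_le_exp, exp_le_exp]
    constructor <;> nlinarith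
  have hup : (transfer n a b ^ (m + 1)).trace ≤ exp (b * n) * boxSum n (m + 1) a b := by
    rw [htr, hsum, mul_sum]
    refine sum_le_sum fun σ _ => ?_
    rw [mul_sum]
    refine sum_le_sum fun τ _ => ?_
    rw [mul_comm]
    exact mul_le_mul_of_nonneg_right (hk τ σ).2 (entry_nonneg a b m σ τ)
  have hlo : exp (-(b * n)) * boxSum n (m + 1) a b ≤ (transfer n a b ^ (m + 1)).trace := by
    rw [htr, hsum, mul_sum]
    refine sum_le_sum fun σ _ => ?_
    rw [mul_sum]
    refine sum_le_sum fun τ _ => ?_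
    rw [mul_comm]
    exact mul_le_mul_of_nonneg_left (hk τ σ).1 (entry_nonneg a b m σ τ)
  have hZ := boxSum_pos n (m + 1) a b
  have hpos : 0 < (transfer n a b ^ (m + 1)).trace :=
    lt_of_lt_of_le (mul_pos (exp_pos _) hZ) hlo
  have e1 := log_le_log hpos hup
  have e2 := log_le_log (mul_pos (exp_pos _) hZ) hlo
  rw [log_mul (exp_pos _).ne' hZ.ne', log_exp] at e1 e2
  rw [abs_le]
  constructor <;> linarith

theorem tendsto_log_boxSum {a b : ℝ} (hb : 0 < b) :
    Tendsto (fun p : ℕ × ℕ => log (boxSum p.1 p.2 a b) / ((p.1 : ℝ) * p.2)) (atTop ×ˢ atTop)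
      (𝓝 (log (2 * sinh (2 * b)) / 2 +
        (∫ u in (0 : ℝ)..1, dispersion a b (2 * π * u)) / 2)) := by
  have h1 : Tendsto (fun p : ℕ × ℕ => log (2 * sinh (2 * b)) / 2 +
      (∑ i, |log (eig p.1 a b i)|) / p.1 / 4) (atTop ×ˢ atTop)
      (𝓝 (log (2 * sinh (2 * b)) / 2 +
        (∫ u in (0 : ℝ)..1, dispersion a b (2 * π * u)) / 2)) := by
    have h := (((tendsto_mean_abs_log a b).comp (tendsto_fst (g := (atTop : Filter ℕ)))).div_const
      (4 : ℝ)).const_add (log (2 * sinh (2 * b)) / 2)
    convert h using 2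
    · rfl
    · ring
  have h2 : Tendsto (fun p : ℕ × ℕ => log (boxSum p.1 p.2 a b) / ((p.1 : ℝ) * p.2) -
      (log (2 * sinh (2 * b)) / 2 + (∑ i, |log (eig p.1 a b i)|) / p.1 / 4))
      (atTop ×ˢ atTop) (𝓝 0) := by
    refine squeeze_zero_norm' ?_
      (((tendsto_const_nhds (x := log 2 + b)).div_atTop tendsto_natCast_atTop_atTop).comp
        (tendsto_snd (f := (atTop : Filter ℕ))))
    filter_upwards [tendsto_fst.eventually (eventually_ge_atTop 1),
      tendsto_snd.eventually (eventually_ge_atTop 1)] with p hp hq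
    obtain ⟨n, m⟩ := p
    obtain ⟨k, rfl⟩ : ∃ k, m = k + 1 := ⟨m - 1, by simp only at hq; omega⟩
    have hn : (0 : ℝ) < n := by exact_mod_cast hp
    have e1 := abs_le.1 (log_trace_sub_log_boxSum hb.le a n k)
    have e2 := abs_le.1 (log_trace_transfer (a := a) hb n (k + 1))
    simp only [Function.comp_apply, Real.norm_eq_abs]
    set K : ℝ := ((k + 1 : ℕ) : ℝ) with hK
    have hKpos : 0 < K := by positivity
    rw [show log (boxSum n (k + 1) a b) / ((n : ℝ) * K) -
        (log (2 * sinh (2 * b)) / 2 + (∑ i, |log (eig n a b i)|) / n / 4) =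
        (log (boxSum n (k + 1) a b) - K * n * log (2 * sinh (2 * b)) / 2 -
          K / 4 * ∑ i, |log (eig n a b i)|) / ((n : ℝ) * K) by field_simp; ring,
      abs_div, abs_of_pos (mul_pos hn hKpos), div_le_div_iff₀ (mul_pos hn hKpos) hKpos,
      show (log 2 + b) * ((n : ℝ) * K) = (log 2 + b) * n * K by ring]
    refine mul_le_mul_of_nonneg_right ?_ hKpos.le
    rw [abs_le]
    constructor <;> linarith [e1.1, e1.2, e2.1, e2.2]
  have h := h1.add h2
  rw [add_zero] at h
  exact h.congr fun p => by ring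

/-! ### Onsager's integrals -/

theorem cosh_cosh_sub_ge (a b s : ℝ) :
    sinh (2 * b) ≤ cosh (2 * a) * cosh (2 * b) - sinh (2 * a) * cos s := by
  have h1 := le_abs_self (sinh (2 * a) * cos s)
  rw [abs_mul, abs_sinh] at h1
  have h2 : sinh |2 * a| * |cos s| ≤ sinh |2 * a| :=
    mul_le_of_le_one_right (sinh_nonneg_iff.2 (abs_nonneg _)) (abs_cos_le_one s)
  have h4 : cosh (2 * a) * cosh (2 * b) - sinh |2 * a| - sinh (2 * b) ≥ 0 := by
    rw [← cosh_abs (2 * a)]
    have c1 := one_le_cosh |2 * a|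
    have c2 := one_le_cosh (2 * b)
    have i1 := cosh_sq |2 * a|
    have i2 := cosh_sq (2 * b)
    nlinarith [sq_nonneg (sinh |2 * a| * sinh (2 * b) - 1), cosh_pos |2 * a|, cosh_pos (2 * b),
      mul_pos (cosh_pos |2 * a|) (cosh_pos (2 * b))]
  linarith

theorem dispArg_eq {b : ℝ} (hb : 0 < b) (a φ : ℝ) :
    dispArg a b φ = (cosh (2 * a) * cosh (2 * b) - sinh (2 * a) * cos φ) / sinh (2 * b) := by
  rw [dispArg, cosh_linkAngle hb, sinh_linkAngle]
  ring

theorem integral_log_sub_cos {x : ℝ} (hx : 1 ≤ x) :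
    IntervalIntegrable (fun t => log (x - cos t)) volume 0 π ∧
      ∫ t in (0 : ℝ)..π, log (x - cos t) = π * (arcosh x - log 2) := by
  set γ := arcosh x with hγ
  have hγ0 : 0 ≤ γ := arcosh_nonneg hx
  set r : ℝ := exp γ with hr
  set f : ℝ → ℝ := fun t => log ‖circleMap (0 : ℂ) 1 t - (r : ℂ)‖ with hf
  have hfi : IntervalIntegrable f volume 0 (2 * π) :=
    (circleIntegrable_log_norm_sub_const (a := (r : ℂ)) (c := 0) 1)
  have hI : ∫ t in (0 : ℝ)..(2 * π), f t = 2 * π * γ := by
    have h := circleAverage_log_norm_sub_const_eq_posLog (a := (r : ℂ))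
    rw [circleAverage, Complex.norm_real, Real.norm_eq_abs, hr, abs_exp,
      posLog_eq_log (by rw [abs_exp]; exact one_le_exp hγ0), log_exp, smul_eq_mul,
      inv_mul_eq_iff_eq_mul₀ (by positivity)] at h
    exact h
  have hae : ∀ᵐ t ∂volume, t ∈ Set.uIoc (0 : ℝ) (2 * π) →
      f t = (log 2 + γ + log (x - cos t)) / 2 := by
    filter_upwards [compl_mem_ae_iff.2 (measure_singleton (2 * π))] with t ht ht'
    rw [Set.uIoc_of_le (by positivity)] at ht'
    have hlt : t < 2 * π := lt_of_le_of_ne ht'.2 ht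
    have hcos : cos t < 1 := lt_of_le_of_ne (cos_le_one t) fun h =>
      ht'.1.ne' ((cos_eq_one_iff_of_lt_of_lt (by linarith [ht'.1, pi_pos]) hlt).1 h)
    have hx' : x = (r + r⁻¹) / 2 := by
      rw [← cosh_arcosh hx, ← hγ, cosh_eq, hr, exp_neg]
    have hsq : ‖circleMap (0 : ℂ) 1 t - (r : ℂ)‖ ^ 2 = 2 * r * (x - cos t) := by
      rw [Complex.sq_norm, Complex.normSq_apply]
      simp [circleMap, Complex.exp_ofReal_mul_I_re, Complex.exp_ofReal_mul_I_im]
      rw [hx']
      have hr0 : r ≠ 0 := (exp_pos γ).ne'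
      field_simp
      linear_combination sin_sq_add_cos_sq t
    have h2 := congrArg log hsq
    rw [log_pow, log_mul (by positivity) (by linarith : x - cos t ≠ 0),
      log_mul two_ne_zero (exp_pos γ).ne', hr, log_exp] at h2
    simp only [hf, hr]
    simp only [Nat.cast_ofNat] at h2
    linarith
  have hae' : (fun t => 2 * f t - log 2 - γ) =ᵐ[volume.restrict (Set.uIoc (0 : ℝ) (2 * π))]
      fun t => log (x - cos t) := by
    rw [EventuallyEq, ae_restrict_iff' measurableSet_uIoc]
    filter_upwards [hae] with t ht ht'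
    rw [ht ht']
    ring
  have hgi : IntervalIntegrable (fun t => log (x - cos t)) volume 0 (2 * π) :=
    (((hfi.const_mul 2).sub intervalIntegrable_const).sub intervalIntegrable_const).congr_ae hae'
  have hπ : Set.uIcc 0 π ⊆ Set.uIcc 0 (2 * π) := by
    rw [Set.uIcc_of_le pi_pos.le, Set.uIcc_of_le (by positivity)]
    exact Set.Icc_subset_Icc le_rfl (by linarith [pi_pos])
  have hπ' : Set.uIcc π (2 * π) ⊆ Set.uIcc 0 (2 * π) := by
    rw [Set.uIcc_of_le (by linarith [pi_pos]), Set.uIcc_of_le (by positivity)]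
    exact Set.Icc_subset_Icc pi_pos.le le_rfl
  refine ⟨hgi.mono_set hπ, ?_⟩
  have h2π : ∫ t in (0 : ℝ)..(2 * π), log (x - cos t) = 2 * π * (γ - log 2) := by
    rw [← intervalIntegral.integral_congr_ae ((ae_restrict_iff' measurableSet_uIoc).1 hae'),
      intervalIntegral.integral_sub ((hfi.const_mul 2).sub intervalIntegrable_const)
        intervalIntegrable_const,
      intervalIntegral.integral_sub (hfi.const_mul 2) intervalIntegrable_const,
      intervalIntegral.integral_const_mul, hI, intervalIntegral.integral_const,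
      intervalIntegral.integral_const, smul_eq_mul, smul_eq_mul]
    ring
  have hsym : ∫ t in π..(2 * π), log (x - cos t) = ∫ t in (0 : ℝ)..π, log (x - cos t) := by
    have := intervalIntegral.integral_comp_sub_left (fun t => log (x - cos t)) (2 * π)
      (a := 0) (b := π)
    simp only [Real.cos_two_pi_sub, sub_zero, show 2 * π - π = π by ring] at this
    exact this.symm
  rw [← intervalIntegral.integral_add_adjacent_intervals (hgi.mono_set hπ) (hgi.mono_set hπ'),
    hsym] at h2π
  linarith

theorem integral_dispersion (a b : ℝ) :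
    ∫ u in (0 : ℝ)..1, dispersion a b (2 * π * u) =
      (∫ φ in (0 : ℝ)..π, dispersion a b φ) / π := by
  have hc := continuous_dispersion a b
  rw [intervalIntegral.integral_comp_mul_left _ (by positivity), mul_zero, mul_one,
    ← intervalIntegral.integral_add_adjacent_intervals (hc.intervalIntegrable 0 π)
      (hc.intervalIntegrable π (2 * π))]
  have hsym : ∫ t in π..(2 * π), dispersion a b t = ∫ t in (0 : ℝ)..π, dispersion a b t := by
    have := intervalIntegral.integral_comp_sub_left (dispersion a b) (2 * π) (a := 0) (b := π)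
    simp only [sub_zero, show 2 * π - π = π by ring] at this
    rw [← this]
    refine intervalIntegral.integral_congr fun t _ => ?_
    simp [dispersion, dispArg, Real.cos_two_pi_sub]
  rw [hsym, smul_eq_mul]
  field_simp
  ring

/-- The free energy as a single integral. -/
def freeEnergy (a b : ℝ) : ℝ :=
  log (2 * sinh (2 * b)) / 2 + (∫ φ in (0 : ℝ)..π,
    arcosh ((cosh (2 * a) * cosh (2 * b) - sinh (2 * a) * cos φ) / sinh (2 * b))) / (2 * π)

theorem tendsto_freeEnergy {a b : ℝ} (hb : 0 < b) :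
    Tendsto (fun p : ℕ × ℕ => log (boxSum p.1 p.2 a b) / ((p.1 : ℝ) * p.2)) (atTop ×ˢ atTop)
      (𝓝 (freeEnergy a b)) := by
  have h := tendsto_log_boxSum (a := a) hb
  rw [integral_dispersion] at h
  simp only [dispersion, dispArg_eq hb] at h
  rwa [div_div, mul_comm π 2] at h

/-- **Onsager's double integral.** -/
theorem freeEnergy_eq {a b : ℝ} (hb : 0 < b) :
    freeEnergy a b = log 2 + (∫ s in (0 : ℝ)..π, ∫ t in (0 : ℝ)..π,
      log (cosh (2 * a) * cosh (2 * b) - sinh (2 * a) * cos s - sinh (2 * b) * cos t)) /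
        (2 * π ^ 2) := by
  have hs : 0 < sinh (2 * b) := sinh_pos_iff.2 (by linarith)
  have inner : ∀ s, ∫ t in (0 : ℝ)..π,
      log (cosh (2 * a) * cosh (2 * b) - sinh (2 * a) * cos s - sinh (2 * b) * cos t) =
      π * (log (sinh (2 * b)) - log 2) + π * dispersion a b s := fun s => by
    set x := (cosh (2 * a) * cosh (2 * b) - sinh (2 * a) * cos s) / sinh (2 * b) with hx
    have hx1 : 1 ≤ x := by
      rw [hx, one_le_div hs]
      exact cosh_cosh_sub_ge a b s
    obtain ⟨hi, hI⟩ := integral_log_sub_cos hx1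
    rw [intervalIntegral.integral_congr_ae (g := fun t => log (sinh (2 * b)) + log (x - cos t)) ?_,
      intervalIntegral.integral_add intervalIntegrable_const hi, hI,
      intervalIntegral.integral_const, smul_eq_mul, dispersion, dispArg_eq hb, ← hx]
    · ring
    · filter_upwards with t ht
      rw [Set.uIoc_of_le pi_pos.le] at ht
      have hcos : cos t < 1 := lt_of_le_of_ne (cos_le_one t) fun h =>
        ht.1.ne' ((cos_eq_one_iff_of_lt_of_lt (by linarith [ht.1, pi_pos])
          (by linarith [ht.2, pi_pos])).1 h)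
      rw [← log_mul hs.ne' (by linarith : x - cos t ≠ 0), hx]
      congr 1
      field_simp
  simp only [inner]
  rw [intervalIntegral.integral_add intervalIntegrable_const
    ((continuous_dispersion a b).intervalIntegrable 0 π |>.const_mul π),
    intervalIntegral.integral_const, intervalIntegral.integral_const_mul, smul_eq_mul, freeEnergy,
    log_mul two_ne_zero hs.ne']
  simp only [dispersion, dispArg_eq hb]
  field_simp
  ring

end FA.Onsager
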