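import Fermat.Agent.Onsager.Ops
import Mathlib.Analysis.SpecialFunctions.Arcosh
import Mathlib.RingTheory.RootsOfUnity.Complex
import Mathlib.Analysis.SpecialFunctions.Trigonometric.Basic
import Mathlib.LinearAlgebra.Matrix.Trace
import Mathlib.Analysis.SpecialFunctions.Integrals.Basic
import Mathlib.Topology.UniformSpace.HeineCantor

/-!
# Moments of the rotation

Closing the row into a circle changes the rotation at two columns only, so it does not change the
traces of powers to first order. The closed rotation is diagonalised by the Fourier transform into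
two by two symbols with eigenvalues `exp (± dispersion)`.
-/

set_option autoImplicit false

noncomputable section

open Matrix Finset Real Filter
open scoped BigOperators Topology

namespace FA.Onsager

/-- The pairing of the closed row. -/
def bondPer {k : ℕ} (a : Idx (k + 1)) : Idx (k + 1) :=
  (!a.1, if a.1 then a.2 + 1 else a.2 - 1)

theorem bondPer_involutive {k : ℕ} : Function.Involutive (bondPer (k := k)) := by
  rintro ⟨e, i⟩
  cases e <;> simp [bondPer]

theorem bondPer_ne {k : ℕ} (a : Idx (k + 1)) : bondPer a ≠ a := by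
  obtain ⟨e, i⟩ := a
  cases e <;> simp [bondPer]

theorem fin_succ_cases {k : ℕ} (i : Fin (k + 1)) :
    ((i + 1 : Fin (k + 1)) : ℕ) = (i : ℕ) + 1 ∧ (i : ℕ) + 1 < k + 1 ∨
      ((i + 1 : Fin (k + 1)) : ℕ) = 0 ∧ (i : ℕ) = k := by
  have h := i.isLt
  rw [Fin.val_add, Fin.val_one', Nat.add_mod_mod]
  rcases Nat.lt_or_ge ((i : ℕ) + 1) (k + 1) with h1 | h1
  · exact Or.inl ⟨Nat.mod_eq_of_lt h1, h1⟩
  · have e : (i : ℕ) + 1 = k + 1 := by omega
    exact Or.inr ⟨by rw [e, Nat.mod_self], by omega⟩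

theorem bondPair_eq_bondPer {k : ℕ} {a : Idx (k + 1)} (h1 : a ≠ (true, Fin.last k))
    (h2 : a ≠ (false, 0)) : bondPair a = bondPer a := by
  obtain ⟨e, i⟩ := a
  cases e
  · have hi : 0 < (i : ℕ) := by
      by_contra hc
      exact h2 (by rw [show i = 0 from Fin.ext (show (i : ℕ) = 0 by omega)])
    have e1 : (⟨(i : ℕ) - 1, by omega⟩ : Fin (k + 1)) = i - 1 := by
      apply Fin.ext
      have h := fin_succ_cases (i - 1)
      rw [sub_add_cancel] at h
      rcases h with ⟨h, -⟩ | ⟨h, -⟩ <;> simp only <;> omega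
    simp [bondPair, bondPer, hi, e1]
  · have hi : (i : ℕ) + 1 < k + 1 := by
      by_contra hc
      have := i.isLt
      exact h1 (by rw [show i = Fin.last k from Fin.ext (show (i : ℕ) = k by omega)])
    have e1 : (⟨(i : ℕ) + 1, hi⟩ : Fin (k + 1)) = i + 1 := by
      apply Fin.ext
      rcases fin_succ_cases i with ⟨h, -⟩ | ⟨-, h⟩ <;> simp only <;> omega
    simp only [bondPair, bondPer, hi, dif_pos, if_true, e1, Bool.not_true]

/-- The rotation of the closed row. -/
def rotationPer (k : ℕ) (a b : ℝ) : Matrix (Idx (k + 1)) (Idx (k + 1)) ℝ :=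
  hyp bondPer (2 * a) * hyp sitePair (linkAngle b)

/-- The bound of the rotation. -/
def growth (a b : ℝ) : ℝ := exp (|2 * a| + |linkAngle b|)

theorem absBound_rotation (n : ℕ) (a b : ℝ) : AbsBound (rotation n a b) (growth a b) := by
  rw [growth, exp_add]
  exact (absBound_hyp bondPair_involutive _).mul (exp_pos _).le (exp_pos _).le
    (absBound_hyp sitePair_involutive _)

theorem absBound_rotationPer (k : ℕ) (a b : ℝ) : AbsBound (rotationPer k a b) (growth a b) := by
  rw [growth, exp_add]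
  exact (absBound_hyp bondPer_involutive _).mul (exp_pos _).le (exp_pos _).le
    (absBound_hyp sitePair_involutive _)

theorem absTotal_diff (k : ℕ) (s : ℝ) :
    absTotal (hyp (bondPair (n := k + 1)) s - hyp bondPer s) ≤ 4 * exp |s| := by
  rw [absTotal, sum_comm]
  set E : Finset (Idx (k + 1)) := {(true, Fin.last k), (false, 0)} with hE
  rw [← sum_subset (subset_univ E) fun j _ hj => ?_]
  · have hcol : ∀ j : Idx (k + 1), ∑ i : Idx (k + 1),
        |(hyp (bondPair (n := k + 1)) s - hyp bondPer s :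
          Matrix (Idx (k + 1)) (Idx (k + 1)) ℝ) i j| ≤
          2 * exp |s| :=
      fun j => by
        refine (sum_le_sum fun i _ => abs_sub _ _).trans ?_
        rw [sum_add_distrib]
        linarith [(absBound_hyp (bondPair_involutive (n := k + 1)) s).2 j,
          (absBound_hyp (bondPer_involutive (k := k)) s).2 j]
    refine (sum_le_sum fun j _ => hcol j).trans ?_
    rw [sum_const, nsmul_eq_mul]
    have : (E.card : ℝ) ≤ 2 := by exact_mod_cast card_le_two
    nlinarith [exp_pos |s|]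
  · simp only [hE, mem_insert, mem_singleton, not_or] at hj
    refine sum_eq_zero fun i _ => ?_
    rw [Matrix.sub_apply, hyp_apply, hyp_apply, bondPair_eq_bondPer hj.1 hj.2, sub_self, abs_zero]

theorem absTotal_pow_diff (k : ℕ) (a b : ℝ) : ∀ m : ℕ,
    absTotal (rotation (k + 1) a b ^ m - rotationPer k a b ^ m) ≤ 4 * m * growth a b ^ m
  | 0 => by simp [absTotal]
  | m + 1 => by
    have ih := absTotal_pow_diff k a b m
    have hB : 0 < growth a b := exp_pos _
    have e : rotation (k + 1) a b ^ (m + 1) - rotationPer k a b ^ (m + 1) =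
        rotation (k + 1) a b * (rotation (k + 1) a b ^ m - rotationPer k a b ^ m) +
          (hyp (bondPair (n := k + 1)) (2 * a) - hyp bondPer (2 * a)) *
            hyp sitePair (linkAngle b) * rotationPer k a b ^ m := by
      rw [pow_succ', pow_succ', Matrix.sub_mul, ← rotation, ← rotationPer, Matrix.mul_sub,
        Matrix.sub_mul]
      abel
    rw [e]
    refine (absTotal_add _ _).trans ?_
    have h1 := (absTotal_mul_left (N := rotation (k + 1) a b ^ m - rotationPer k a b ^ m)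
      (absBound_rotation (k + 1) a b)).trans (mul_le_mul_of_nonneg_left ih hB.le)
    have h2 : absTotal ((hyp (bondPair (n := k + 1)) (2 * a) - hyp bondPer (2 * a)) *
        hyp sitePair (linkAngle b) * rotationPer k a b ^ m) ≤ 4 * growth a b * growth a b ^ m := by
      refine (absTotal_mul_right ((absBound_rotationPer k a b).pow hB.le m)).trans
        (mul_le_mul_of_nonneg_right ?_ (by positivity))
      refine (absTotal_mul_right (absBound_hyp sitePair_involutive _)).trans ?_
      rw [growth, exp_add, ← mul_assoc]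
      exact mul_le_mul_of_nonneg_right (absTotal_diff k _) (exp_pos _).le
    refine (add_le_add h1 h2).trans (le_of_eq ?_)
    rw [pow_succ]
    push_cast
    ring

/-! ### The symbol -/

/-- The hyperbolic cosine of the dispersion. -/
def dispArg (a b φ : ℝ) : ℝ :=
  cosh (2 * a) * cosh (linkAngle b) + sinh (2 * a) * sinh (linkAngle b) * cos φ

/-- The dispersion. -/
def dispersion (a b φ : ℝ) : ℝ := arcosh (dispArg a b φ)

theorem dispArg_bounds (a b φ : ℝ) :
    1 ≤ dispArg a b φ ∧ dispArg a b φ ≤ cosh (|2 * a| + |linkAngle b|) := by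
  set x := 2 * a
  set y := linkAngle b
  have h1 : |sinh x * sinh y * cos φ| ≤ sinh |x| * sinh |y| := by
    rw [abs_mul, abs_mul, abs_sinh, abs_sinh]
    exact mul_le_of_le_one_right
      (mul_nonneg (sinh_nonneg_iff.2 (abs_nonneg _)) (sinh_nonneg_iff.2 (abs_nonneg _)))
      (abs_cos_le_one φ)
  obtain ⟨h2, h3⟩ := abs_le.1 h1
  have h4 := one_le_cosh (|x| - |y|)
  rw [cosh_sub, cosh_abs, cosh_abs] at h4
  rw [cosh_add, cosh_abs, cosh_abs]
  unfold dispArg
  constructor <;> linarith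

theorem dispersion_nonneg (a b φ : ℝ) : 0 ≤ dispersion a b φ :=
  arcosh_nonneg (dispArg_bounds a b φ).1

theorem cosh_dispersion (a b φ : ℝ) : cosh (dispersion a b φ) = dispArg a b φ :=
  cosh_arcosh (dispArg_bounds a b φ).1

theorem dispersion_le (a b φ : ℝ) : dispersion a b φ ≤ |2 * a| + |linkAngle b| := by
  obtain ⟨h1, h2⟩ := dispArg_bounds a b φ
  rw [dispersion, ← arcosh_cosh (x := |2 * a| + |linkAngle b|) (by positivity),
    arcosh_le_arcosh (by linarith) (cosh_pos _)]
  exact h2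

theorem continuous_dispersion (a b : ℝ) : Continuous (dispersion a b) :=
  continuousOn_arcosh.comp_continuous (by unfold dispArg; fun_prop) fun φ =>
    (dispArg_bounds a b φ).1

/-- The symbol of the pairs inside a site. -/
def siteSym (t : ℝ) : Matrix Bool Bool ℂ :=
  Matrix.of fun e f => if e = f then (cosh t : ℂ) else (sinh t : ℂ)

/-- The symbol of the pairs across a bond. -/
def bondSym (t : ℝ) (z : ℂ) : Matrix Bool Bool ℂ :=
  Matrix.of fun e f => if e = f then (cosh t : ℂ) else (sinh t : ℂ) * (if e then z else z⁻¹)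

theorem trace_sym_pow (t u : ℝ) {z : ℂ} (hz : z ≠ 0) {g : ℝ}
    (hg : (2 * cosh g : ℂ) = 2 * (cosh t * cosh u) + sinh t * sinh u * (z + z⁻¹)) :
    ∀ m : ℕ, ((bondSym t z * siteSym u) ^ m).trace = ((2 * cosh (m * g) : ℝ) : ℂ) := by
  set M := bondSym t z * siteSym u with hM
  have h1 : M.trace = ((2 * cosh g : ℝ) : ℂ) := by
    push_cast at hg ⊢
    rw [hg]
    simp [hM, Matrix.trace, Matrix.mul_apply, bondSym, siteSym]
    ring
  have h2 : M * M = ((2 * cosh g : ℝ) : ℂ) • M - 1 := by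
    have ct : (cosh t : ℂ) ^ 2 - (sinh t : ℂ) ^ 2 = 1 := by exact_mod_cast cosh_sq_sub_sinh_sq t
    have cu : (cosh u : ℂ) ^ 2 - (sinh u : ℂ) ^ 2 = 1 := by exact_mod_cast cosh_sq_sub_sinh_sq u
    push_cast at hg ct cu ⊢
    rw [hg]
    ext e f
    cases e <;> cases f <;>
      simp [hM, Matrix.mul_apply, bondSym, siteSym] <;>
      first
        | linear_combination (norm := (field_simp; ring1)) 0 * ct
        | linear_combination (norm := (field_simp; ring1))
            -((Complex.cosh (u : ℂ) ^ 2 - Complex.sinh (u : ℂ) ^ 2) * ct) - cu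
  intro m
  induction m using Nat.twoStepInduction with
  | zero => simp [Matrix.trace_one]
  | one => simpa using h1
  | more m ih1 ih2 =>
    rw [pow_add, pow_two, h2, Matrix.mul_sub, Matrix.mul_smul, Matrix.mul_one, ← pow_succ,
      Matrix.trace_sub, Matrix.trace_smul, ih1, ih2, smul_eq_mul, ← Complex.ofReal_mul,
      ← Complex.ofReal_sub]
    congr 1
    have e1 : ((m + 2 : ℕ) : ℝ) * g = ((m + 1 : ℕ) : ℝ) * g + g := by push_cast; ring
    have e2 : (m : ℝ) * g = ((m + 1 : ℕ) : ℝ) * g - g := by push_cast; ring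
    rw [e1, e2, cosh_add, cosh_sub]
    ring

/-- The Fourier transform. -/
def fourier (k : ℕ) (ω : ℂ) : Matrix (Idx (k + 1)) (Idx (k + 1)) ℂ :=
  Matrix.of fun p q => if p.1 = q.1 then ω ^ ((p.2 : ℕ) * (q.2 : ℕ)) else 0

theorem pow_succ_fin {k : ℕ} {ω : ℂ} (hω : ω ^ (k + 1) = 1) (i j : Fin (k + 1)) :
    ω ^ (((i + 1 : Fin (k + 1)) : ℕ) * (j : ℕ)) = ω ^ ((i : ℕ) * (j : ℕ)) * ω ^ (j : ℕ) := by
  rw [← pow_add]
  rcases fin_succ_cases i with ⟨h, -⟩ | ⟨h, h'⟩
  · rw [h, add_mul, one_mul]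
  · rw [h, h', zero_mul, pow_zero, show k * (j : ℕ) + (j : ℕ) = (k + 1) * (j : ℕ) by ring,
      pow_mul, hω, one_pow]

theorem bond_fourier {k : ℕ} {ω : ℂ} (hω : ω ^ (k + 1) = 1) (t : ℝ) :
    (hyp (bondPer (k := k)) t).map (algebraMap ℝ ℂ) * fourier k ω =
      fourier k ω * Matrix.blockDiagonal fun j : Fin (k + 1) => bondSym t (ω ^ (j : ℕ)) := by
  have hω0 : ω ≠ 0 := fun h => by simp [h] at hω
  ext ⟨e, i⟩ ⟨f, j⟩
  have hl : ((hyp (bondPer (k := k)) t).map (algebraMap ℝ ℂ) * fourier k ω) (e, i) (f, j) =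
      ∑ c, hyp bondPer t c (e, i) • fourier k ω c (f, j) := by
    rw [Matrix.mul_apply]
    refine sum_congr rfl fun c _ => ?_
    rw [Matrix.map_apply, Complex.coe_algebraMap, Complex.real_smul]
    congr 2
    conv_lhs => rw [← hyp_transpose bondPer_involutive t]
    rfl
  have hm := pow_succ_fin hω (i - 1) j
  rw [sub_add_cancel] at hm
  have hp := pow_succ_fin hω i j
  have hj : ω ^ (j : ℕ) ≠ 0 := pow_ne_zero _ hω0
  rw [hl, hyp_sum, if_neg (bondPer_ne _), Matrix.mul_apply, Fintype.sum_prod_type,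
    Fintype.sum_bool]
  cases e <;> cases f <;>
    simp [fourier, bondPer, bondSym, Matrix.blockDiagonal_apply, Complex.real_smul, hp, hm] <;>
    field_simp

theorem site_fourier {k : ℕ} (ω : ℂ) (t : ℝ) :
    (hyp (sitePair (n := k + 1)) t).map (algebraMap ℝ ℂ) * fourier k ω =
      fourier k ω * Matrix.blockDiagonal fun _ : Fin (k + 1) => siteSym t := by
  ext ⟨e, i⟩ ⟨f, j⟩
  have hl : ((hyp (sitePair (n := k + 1)) t).map (algebraMap ℝ ℂ) * fourier k ω) (e, i) (f, j) =
      ∑ c, hyp sitePair t c (e, i) • fourier k ω c (f, j) := by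
    rw [Matrix.mul_apply]
    refine sum_congr rfl fun c _ => ?_
    rw [Matrix.map_apply, Complex.coe_algebraMap, Complex.real_smul]
    congr 2
    conv_lhs => rw [← hyp_transpose sitePair_involutive t]
    rfl
  rw [hl, hyp_sum, if_neg (sitePair_ne _), Matrix.mul_apply, Fintype.sum_prod_type,
    Fintype.sum_bool]
  cases e <;> cases f <;>
    simp [fourier, sitePair, siteSym, Matrix.blockDiagonal_apply, Complex.real_smul, mul_comm]

theorem fourier_inverse {k : ℕ} {ω : ℂ} (hω : IsPrimitiveRoot ω (k + 1)) :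
    (((k + 1 : ℕ) : ℂ)⁻¹ • (fourier k ω⁻¹)ᵀ) * fourier k ω = 1 := by
  have hω0 : ω ≠ 0 := hω.ne_zero (by omega)
  ext ⟨e, i⟩ ⟨f, j⟩
  rw [Matrix.smul_mul, Matrix.smul_apply, Matrix.mul_apply, Fintype.sum_prod_type]
  simp only [fourier, Matrix.transpose_apply, Matrix.of_apply]
  rw [Finset.sum_eq_single e (fun c _ hc => by simp [hc]) (by simp)]
  by_cases hef : e = f
  · subst hef
    simp only [if_true, inv_pow]
    have e1 : ∀ x : Fin (k + 1), (ω ^ ((x : ℕ) * (i : ℕ)))⁻¹ * ω ^ ((x : ℕ) * (j : ℕ)) =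
        (ω ^ (j : ℕ) / ω ^ (i : ℕ)) ^ (x : ℕ) := fun x => by
      rw [div_pow, ← pow_mul, ← pow_mul, mul_comm (i : ℕ), mul_comm (j : ℕ), div_eq_inv_mul]
    rw [sum_congr rfl fun x _ => e1 x, Fin.sum_univ_eq_sum_range
      (fun x => (ω ^ (j : ℕ) / ω ^ (i : ℕ)) ^ x)]
    by_cases hij : i = j
    · subst hij
      simp [hω0, Nat.cast_add_one_ne_zero]
    · have hne : ω ^ (j : ℕ) / ω ^ (i : ℕ) ≠ 1 := fun h =>
        hij (Fin.ext (hω.pow_inj i.isLt j.isLt ((div_eq_one_iff_eq (pow_ne_zero _ hω0)).1 h).symm))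
      rw [geom_sum_eq hne, div_pow, ← pow_mul, ← pow_mul, mul_comm (j : ℕ), mul_comm (i : ℕ),
        pow_mul, pow_mul, hω.pow_eq_one]
      simp [hij]
  · simp [hef]

theorem trace_rotationPer (k : ℕ) (a b : ℝ) (m : ℕ) :
    (rotationPer k a b ^ m).trace = ∑ j : Fin (k + 1),
      2 * cosh (m * dispersion a b (2 * π * ((j : ℕ) / ((k + 1 : ℕ) : ℝ)))) := by
  set ω : ℂ := Complex.exp (2 * π * Complex.I / ((k + 1 : ℕ) : ℂ)) with hω
  have hprim : IsPrimitiveRoot ω (k + 1) := Complex.isPrimitiveRoot_exp (k + 1) (by omega)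
  set W := fourier k ω
  set V := ((k + 1 : ℕ) : ℂ)⁻¹ • (fourier k ω⁻¹)ᵀ
  have hVW : V * W = 1 := fourier_inverse hprim
  have hWV : W * V = 1 := mul_eq_one_comm.1 hVW
  set BD := Matrix.blockDiagonal fun j : Fin (k + 1) =>
    bondSym (2 * a) (ω ^ (j : ℕ)) * siteSym (linkAngle b) with hBD
  set Rc := (rotationPer k a b).map (algebraMap ℝ ℂ) with hRc
  have h : Rc * W = W * BD := by
    rw [hRc, rotationPer, Matrix.map_mul, Matrix.mul_assoc, site_fourier, ← Matrix.mul_assoc,
      bond_fourier hprim.pow_eq_one, Matrix.mul_assoc, ← Matrix.blockDiagonal_mul]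
  have hconj : Rc = W * BD * V := by rw [← h, Matrix.mul_assoc, hWV, Matrix.mul_one]
  have hpow : Rc ^ m = W * BD ^ m * V := by
    induction m with
    | zero => simp [hWV]
    | succ m ih =>
      rw [pow_succ, ih, hconj, pow_succ]
      simp only [Matrix.mul_assoc]
      rw [← Matrix.mul_assoc V W, hVW, Matrix.one_mul]
  have ht : ((rotationPer k a b ^ m).trace : ℂ) = (Rc ^ m).trace := by
    rw [hRc, ← RingHom.mapMatrix_apply, ← map_pow, RingHom.mapMatrix_apply]
    simp [Matrix.trace]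
  rw [hpow, Matrix.trace_mul_cycle, hVW, Matrix.one_mul, hBD, ← Matrix.blockDiagonal_pow,
    Matrix.trace_blockDiagonal] at ht
  refine Complex.ofReal_injective (ht.trans ?_)
  rw [Complex.ofReal_sum]
  refine sum_congr rfl fun j _ => ?_
  simp only [Pi.pow_apply]
  have hz : ω ^ (j : ℕ) = Complex.exp
      (((2 * π * ((j : ℕ) / ((k + 1 : ℕ) : ℝ)) : ℝ) : ℂ) * Complex.I) := by
    rw [hω, ← Complex.exp_nat_mul]
    congr 1
    push_cast
    ring
  rw [trace_sym_pow (2 * a) (linkAngle b)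
    (g := dispersion a b (2 * π * ((j : ℕ) / ((k + 1 : ℕ) : ℝ))))
    (pow_ne_zero _ (Complex.exp_ne_zero _))]
  rw [hz, ← Complex.exp_neg, cosh_dispersion, dispArg]
  generalize 2 * π * ((j : ℕ) / ((k + 1 : ℕ) : ℝ)) = φ
  have hc : Complex.exp ((φ : ℂ) * Complex.I) + Complex.exp (-((φ : ℂ) * Complex.I)) =
      2 * (cos φ : ℂ) := by
    rw [Complex.ofReal_cos, Complex.two_cos, neg_mul]
  rw [hc]
  push_cast
  ring

/-! ### The limit of the moments -/

/-- Riemann sums of a continuous function. -/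
theorem tendsto_riemann_sum {f : ℝ → ℝ} (hf : Continuous f) :
    Tendsto (fun n : ℕ => (∑ j ∈ range n, f ((j : ℝ) / n)) / n) atTop
      (𝓝 (∫ u in (0 : ℝ)..1, f u)) := by
  rw [Metric.tendsto_atTop]
  intro ε hε
  obtain ⟨δ, hδ, hu⟩ := Metric.uniformContinuousOn_iff.1
    ((isCompact_Icc (a := (0 : ℝ)) (b := 1)).uniformContinuousOn_of_continuous hf.continuousOn)
    (ε / 2) (by positivity)
  obtain ⟨N, hN⟩ := exists_nat_gt (1 / δ)
  refine ⟨max N 1, fun n hn => ?_⟩
  have hn1 : 1 ≤ n := le_trans (le_max_right _ _) hn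
  have hnR : (0 : ℝ) < n := by exact_mod_cast hn1
  have hstep : (1 : ℝ) / n < δ := by
    have h1 : (N : ℝ) ≤ n := by exact_mod_cast le_trans (le_max_left _ _) hn
    rw [div_lt_iff₀ hnR]
    rw [div_lt_iff₀ hδ] at hN
    nlinarith
  have hsum : ∫ u in (0 : ℝ)..1, f u =
      ∑ j ∈ range n, ∫ u in ((j : ℝ) / n)..(((j + 1 : ℕ) : ℝ) / n), f u := by
    rw [intervalIntegral.sum_integral_adjacent_intervals (a := fun j : ℕ => (j : ℝ) / n)
      fun _ _ => hf.intervalIntegrable _ _]
    simp [hnR.ne']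
  rw [Real.dist_eq, hsum, sum_div, ← sum_sub_distrib]
  refine lt_of_le_of_lt (abs_sum_le_sum_abs _ _) ?_
  have hterm : ∀ j ∈ range n, |f ((j : ℝ) / n) / n -
      ∫ u in ((j : ℝ) / n)..(((j + 1 : ℕ) : ℝ) / n), f u| ≤ ε / 2 / n := by
    intro j hj
    rw [Finset.mem_range] at hj
    have hjR : (j : ℝ) + 1 ≤ n := by exact_mod_cast hj
    have hwid : ((j + 1 : ℕ) : ℝ) / n - (j : ℝ) / n = 1 / n := by push_cast; ring
    rw [show f ((j : ℝ) / n) / n = ∫ _ in ((j : ℝ) / n)..(((j + 1 : ℕ) : ℝ) / n), f ((j : ℝ) / n) by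
      rw [intervalIntegral.integral_const, hwid, smul_eq_mul]; ring,
      ← intervalIntegral.integral_sub intervalIntegrable_const (hf.intervalIntegrable _ _),
      ← Real.norm_eq_abs]
    refine (intervalIntegral.norm_integral_le_of_norm_le_const (C := ε / 2) fun u hu' => ?_).trans
      (le_of_eq ?_)
    · rw [Set.uIoc_of_le (by linarith [show (0 : ℝ) ≤ 1 / n by positivity])] at hu'
      have h0 : (0 : ℝ) ≤ (j : ℝ) / n := by positivity
      have h1 : ((j + 1 : ℕ) : ℝ) / n ≤ 1 := by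
        rw [div_le_one hnR]
        push_cast
        exact hjR
      rw [Real.norm_eq_abs, ← Real.dist_eq]
      refine (hu _ ⟨h0, by linarith [hu'.1, hu'.2]⟩ _ ⟨by linarith [hu'.1], by linarith [hu'.2]⟩
        ?_).le
      rw [Real.dist_eq, abs_sub_lt_iff]
      constructor <;> linarith [hu'.1, hu'.2]
    · rw [hwid, abs_of_pos (by positivity)]
      ring
  refine lt_of_le_of_lt (sum_le_sum hterm) ?_
  rw [sum_const, card_range, nsmul_eq_mul, mul_div_cancel₀ _ hnR.ne']
  linarith

theorem tendsto_moment (a b : ℝ) (m : ℕ) :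
    Tendsto (fun k : ℕ => (rotation (k + 1) a b ^ m).trace / ((k + 1 : ℕ) : ℝ)) atTop
      (𝓝 (∫ u in (0 : ℝ)..1, 2 * cosh (m * dispersion a b (2 * π * u)))) := by
  have hf : Continuous fun u => 2 * cosh ((m : ℝ) * dispersion a b (2 * π * u)) := by
    have := continuous_dispersion a b
    fun_prop
  have h1 := (tendsto_riemann_sum hf).comp (tendsto_add_atTop_nat 1)
  have h1' : Tendsto (fun k : ℕ => (rotationPer k a b ^ m).trace / ((k + 1 : ℕ) : ℝ)) atTop
      (𝓝 (∫ u in (0 : ℝ)..1, 2 * cosh (m * dispersion a b (2 * π * u)))) := by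
    refine h1.congr fun k => ?_
    rw [Function.comp_apply, trace_rotationPer, ← Fin.sum_univ_eq_sum_range
      (fun j => 2 * cosh ((m : ℝ) * dispersion a b (2 * π * ((j : ℝ) / ((k + 1 : ℕ) : ℝ)))))]
  have h2 : Tendsto (fun k : ℕ => ((rotation (k + 1) a b ^ m).trace -
      (rotationPer k a b ^ m).trace) / ((k + 1 : ℕ) : ℝ)) atTop (𝓝 0) := by
    refine squeeze_zero_norm (fun k => ?_)
      ((tendsto_const_nhds (x := 4 * (m : ℝ) * growth a b ^ m)).div_atTop
        (tendsto_natCast_atTop_atTop.comp (tendsto_add_atTop_nat 1)))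
    rw [Real.norm_eq_abs, abs_div, ← Matrix.trace_sub, Function.comp_apply, Nat.abs_cast]
    exact div_le_div_of_nonneg_right ((abs_trace_le_absTotal _).trans (absTotal_pow_diff k a b m))
      (by positivity)
  have h3 := h1'.add h2
  rw [add_zero] at h3
  refine h3.congr fun k => ?_
  ring

end FA.Onsager
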