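import Fermat.Agent.Onsager.Spin
import Fermat.Agent.Onsager.Hyp
import Mathlib.Analysis.SpecialFunctions.Arsinh
import Mathlib.Data.ZMod.Basic
import Mathlib.Algebra.CharP.Two
import Mathlib.Algebra.BigOperators.Fin

/-!
# The transfer matrix of a row

The row is a configuration of `n` signs. The Majorana operators are signed translations, the two
factors of the transfer matrix turn them by hyperbolic angles, and so the square of the trace of a
power of the transfer matrix is a determinant of size `2 n`.
-/

set_option autoImplicit false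

noncomputable section

open Matrix Finset Real
open scoped BigOperators

namespace FA.Onsager

/-- A row of signs. -/
abbrev Row (n : ℕ) : Type := Fin n → ZMod 2

/-- The indices of the operators. -/
abbrev Idx (n : ℕ) : Type := Bool × Fin n

/-- The sign of a bit. -/
def sgn (x : ZMod 2) : ℝ := if x = 0 then 1 else -1

theorem zmod_two_cases : ∀ x : ZMod 2, x = 0 ∨ x = 1 := by decide

theorem sgn_zero : sgn 0 = 1 := if_pos rfl

theorem sgn_one : sgn 1 = -1 := if_neg (by decide)

theorem sgn_add (x y : ZMod 2) : sgn (x + y) = sgn x * sgn y := by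
  have e : (1 : ZMod 2) + 1 = 0 := by decide
  rcases zmod_two_cases x with rfl | rfl <;> rcases zmod_two_cases y with rfl | rfl <;>
    simp [sgn_zero, sgn_one, e]

theorem sgn_mul_self (x : ZMod 2) : sgn x * sgn x = 1 := by
  rcases zmod_two_cases x with rfl | rfl <;> simp [sgn_zero, sgn_one]

variable {n : ℕ}

theorem row_add_self (A : Row n) : A + A = 0 := funext fun _ => CharTwo.add_self_eq_zero _

theorem add_flip (σ A τ : Row n) : τ = σ + A ↔ τ + A = σ := by
  constructor <;> rintro rfl <;> rw [add_assoc, row_add_self, add_zero]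

/-- A diagonal matrix times a translation. -/
def mono (A : Row n) (u : Row n → ℝ) : Matrix (Row n) (Row n) ℝ :=
  Matrix.of fun σ τ => if τ = σ + A then u σ else 0

theorem mono_mul_apply (A : Row n) (u : Row n → ℝ) (M : Matrix (Row n) (Row n) ℝ) (σ τ : Row n) :
    (mono A u * M) σ τ = u σ * M (σ + A) τ := by
  simp [mono, Matrix.mul_apply]

theorem mul_mono_apply (A : Row n) (u : Row n → ℝ) (M : Matrix (Row n) (Row n) ℝ) (σ τ : Row n) :
    (M * mono A u) σ τ = M σ (τ + A) * u (τ + A) := by
  simp [mono, Matrix.mul_apply, add_flip _ A τ]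

theorem mono_mul_mono (A B : Row n) (u v : Row n → ℝ) :
    mono A u * mono B v = mono (A + B) (fun σ => u σ * v (σ + A)) := by
  ext σ τ
  rw [mono_mul_apply]
  simp [mono, add_assoc]

theorem mono_one : mono (0 : Row n) (fun _ => 1) = 1 := by
  ext σ τ
  simp [mono, Matrix.one_apply, eq_comm]

theorem mono_smul (A : Row n) (u : Row n → ℝ) (c : ℝ) :
    c • mono A u = mono A (fun σ => c * u σ) := by
  ext σ τ
  simp [mono]

/-- The first `m` sites. -/
def low (n m : ℕ) : Row n := fun i => if (i : ℕ) < m then 1 else 0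

/-- The Majorana operators. -/
def opGen (a : Idx n) : Matrix (Row n) (Row n) ℝ :=
  mono (low n ((a.2 : ℕ) + if a.1 then 1 else 0)) (fun σ => sgn (σ a.2))

/-- The square of an operator. -/
def opEta (a : Idx n) : ℝ := if a.1 then -1 else 1

theorem opGen_mul (a b : Idx n) : opGen a * opGen b =
    mono (low n ((a.2 : ℕ) + if a.1 then 1 else 0) + low n ((b.2 : ℕ) + if b.1 then 1 else 0))
      (fun σ => sgn (σ a.2) * sgn (σ b.2) *
        sgn (low n ((a.2 : ℕ) + if a.1 then 1 else 0) b.2)) := by
  simp only [opGen, mono_mul_mono, Pi.add_apply, sgn_add, mul_assoc]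

/-- The generators of the matrices on rows. -/
def rowGens (n : ℕ) : Gens (Row n) (Idx n) where
  gen := opGen
  eta := opEta
  anti a b hab := by
    obtain ⟨e, i⟩ := a
    obtain ⟨f, j⟩ := b
    rw [← neg_one_smul ℝ (opGen (f, j) * opGen (e, i)), opGen_mul, opGen_mul, mono_smul,
      add_comm (low n _)]
    congr 1
    funext σ
    have key : sgn (low n ((i : ℕ) + if e then 1 else 0) j) =
        -sgn (low n ((j : ℕ) + if f then 1 else 0) i) := by
      rcases lt_trichotomy (i : ℕ) j with h | h | h
      · cases e <;>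
          simp [low, sgn_zero, sgn_one, h.not_gt, h.not_ge, Nat.lt_add_right _ h]
      · have hij : i = j := Fin.ext h
        subst hij
        cases e <;> cases f <;> simp_all [low, sgn_zero, sgn_one]
      · cases f <;>
          simp [low, sgn_zero, sgn_one, h.not_gt, h.not_ge, Nat.lt_add_right _ h]
    rw [key]
    ring
  sq a := by
    obtain ⟨e, i⟩ := a
    rw [opGen_mul, row_add_self, ← mono_one, mono_smul]
    congr 1
    funext σ
    cases e <;> simp [low, opEta, sgn_zero, sgn_one, sgn_mul_self]
  eta_ne a := by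
    unfold opEta
    split_ifs <;> norm_num
  even_card := by simp
  card_eq := by simp [← pow_add, two_mul]

/-! ### The interaction between two rows -/

/-- The weight of a difference of two rows. -/
def weight (b : ℝ) (d : Row n) : ℝ := ∏ i, exp (b * sgn (d i))

/-- The interaction between two rows. -/
def linkMat (n : ℕ) (b : ℝ) : Matrix (Row n) (Row n) ℝ :=
  Matrix.of fun σ τ => weight b (σ + τ)

/-- The other operator of a site. -/
def sitePair (a : Idx n) : Idx n := (!a.1, a.2)

theorem sitePair_involutive : Function.Involutive (sitePair (n := n)) := fun a => by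
  simp [sitePair]

theorem sitePair_ne (a : Idx n) : sitePair a ≠ a := by
  obtain ⟨e, i⟩ := a
  cases e <;> simp [sitePair]

theorem low_sitePair (a : Idx n) :
    low n (((sitePair a).2 : ℕ) + if (sitePair a).1 then 1 else 0) =
      low n ((a.2 : ℕ) + if a.1 then 1 else 0) + Pi.single a.2 1 := by
  obtain ⟨e, i⟩ := a
  funext k
  have e11 : (1 : ZMod 2) + 1 = 0 := by decide
  rcases lt_trichotomy (k : ℕ) i with h | h | h
  · have hk : k ≠ i := fun hk => h.ne (congrArg Fin.val hk)
    cases e <;> simp [low, sitePair, h, hk, Nat.lt_add_right _ h]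
  · have hk : k = i := Fin.ext h
    subst hk
    cases e <;> simp [low, sitePair, e11]
  · have hk : k ≠ i := fun hk => h.ne' (congrArg Fin.val hk)
    cases e <;> simp [low, sitePair, h.not_gt, hk, show ¬(k : ℕ) < (i : ℕ) + 1 by omega]

theorem weight_flip (b : ℝ) (d : Row n) (i : Fin n) :
    weight b (d + Pi.single i 1) = weight b d * exp (-(2 * b * sgn (d i))) := by
  unfold weight
  rw [← mul_prod_erase univ _ (mem_univ i), ← mul_prod_erase univ _ (mem_univ i),
    Pi.add_apply, Pi.single_eq_same, sgn_add, sgn_one]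
  rw [prod_congr rfl fun k hk => by
    rw [Pi.add_apply, Pi.single_eq_of_ne (Finset.ne_of_mem_erase hk), add_zero]]
  rw [mul_comm (exp (b * sgn (d i))), mul_assoc, ← exp_add, mul_comm]
  congr 2
  ring

/-- The angle of the interaction between rows. -/
def linkAngle (b : ℝ) : ℝ := -arsinh (1 / sinh (2 * b))

theorem sinh_linkAngle (b : ℝ) : sinh (linkAngle b) = -(1 / sinh (2 * b)) := by
  rw [linkAngle, sinh_neg, sinh_arsinh]

theorem cosh_linkAngle {b : ℝ} (hb : 0 < b) :
    cosh (linkAngle b) = cosh (2 * b) / sinh (2 * b) := by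
  have hs : 0 < sinh (2 * b) := sinh_pos_iff.2 (by linarith)
  rw [linkAngle, cosh_neg, cosh_arsinh, div_pow, one_pow,
    show 1 + 1 / sinh (2 * b) ^ 2 = (cosh (2 * b) / sinh (2 * b)) ^ 2 by
      rw [div_pow, cosh_sq]; field_simp,
    sqrt_sq (div_nonneg (cosh_pos _).le hs.le)]

theorem linkMat_acts {b : ℝ} (hb : 0 < b) :
    (rowGens n).Acts (linkMat n b) (hyp sitePair (linkAngle b)) := fun a => by
  show linkMat n b * opGen a = (∑ c, hyp sitePair (linkAngle b) c a • opGen c) * linkMat n b
  rw [hyp_sum, if_neg (sitePair_ne a)]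
  ext σ τ
  set A := low n ((a.2 : ℕ) + if a.1 then 1 else 0) with hA
  simp only [opGen, Matrix.add_mul, Matrix.smul_mul, Matrix.add_apply, Matrix.smul_apply,
    smul_eq_mul, mul_mono_apply, mono_mul_apply, linkMat, Matrix.of_apply, low_sitePair, ← hA,
    sinh_linkAngle, cosh_linkAngle hb]
  rw [show σ + (τ + A) = σ + τ + A from (add_assoc _ _ _).symm,
    show σ + A + τ = σ + τ + A from add_right_comm _ _ _,
    show σ + (A + Pi.single a.2 1) + τ = σ + τ + A + Pi.single a.2 1 by abel,
    show (sitePair a).2 = a.2 from rfl, weight_flip]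
  have hd : sgn ((σ + τ + A) a.2) * sgn (σ a.2) = sgn ((τ + A) a.2) := by
    simp only [Pi.add_apply, sgn_add]
    linear_combination (sgn (τ a.2) * sgn (A a.2)) * sgn_mul_self (σ a.2)
  have hs : sinh (2 * b) ≠ 0 := (sinh_pos_iff.2 (by linarith)).ne'
  rw [← hd]
  rcases zmod_two_cases ((σ + τ + A) a.2) with h | h <;>
    simp only [h, sgn_zero, sgn_one, mul_one, mul_neg, neg_neg, one_mul]
  · rw [← cosh_sub_sinh (2 * b)]
    field_simp
    ring
  · rw [← cosh_add_sinh (2 * b)]
    field_simp
    ring

/-! ### The interaction inside a row -/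

/-- A bond of the row. -/
def bondTerm (σ : Row n) (i : Fin n) : ℝ :=
  if h : (i : ℕ) + 1 < n then sgn (σ i) * sgn (σ ⟨(i : ℕ) + 1, h⟩) else 0

/-- The interaction inside a row. -/
def rowMat (n : ℕ) (a : ℝ) : Matrix (Row n) (Row n) ℝ :=
  mono 0 fun σ => exp (a * ∑ i, bondTerm σ i)

/-- The operator across the bond. -/
def bondPair (a : Idx n) : Idx n :=
  if a.1 then (if h : (a.2 : ℕ) + 1 < n then (false, ⟨(a.2 : ℕ) + 1, h⟩) else a)
  else (if 0 < (a.2 : ℕ) then (true, ⟨(a.2 : ℕ) - 1, by omega⟩) else a)

theorem bondPair_involutive : Function.Involutive (bondPair (n := n)) := by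
  rintro ⟨e, i⟩
  cases e
  · by_cases h : 0 < (i : ℕ)
    · simp [bondPair, h, show (i : ℕ) - 1 + 1 = i by omega]
    · simp [bondPair, h]
  · by_cases h : (i : ℕ) + 1 < n <;> simp [bondPair, h]

theorem bondTerm_low (σ : Row n) (m : ℕ) (i : Fin n) :
    bondTerm (σ + low n m) i =
      bondTerm σ i - 2 * (if (i : ℕ) + 1 = m then bondTerm σ i else 0) := by
  unfold bondTerm
  split_ifs with h1 h2
  · simp only [Pi.add_apply, sgn_add, low]
    rw [if_pos (by omega), if_neg (by omega), sgn_one, sgn_zero]
    ring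
  · simp only [Pi.add_apply, sgn_add, low]
    rcases Nat.lt_or_ge ((i : ℕ) + 1) m with h3 | h3
    · rw [if_pos (by omega), if_pos h3, sgn_one]
      ring
    · rw [if_neg (by omega), if_neg (by omega), sgn_zero]
      ring
  · ring
  · ring

theorem exp_mul_sgn (x : ℝ) (s : ℝ) (hs : s = 1 ∨ s = -1) :
    exp (x * s) = cosh x + sinh x * s := by
  rcases hs with rfl | rfl
  · rw [mul_one, mul_one, cosh_add_sinh]
  · rw [mul_neg_one, mul_neg_one, ← sub_eq_add_neg, cosh_sub_sinh]

theorem sgn_mul_sgn (x y : ZMod 2) : sgn x * sgn y = 1 ∨ sgn x * sgn y = -1 := by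
  rcases zmod_two_cases x with rfl | rfl <;> rcases zmod_two_cases y with rfl | rfl <;>
    simp [sgn_zero, sgn_one]

theorem rowMat_acts (c : ℝ) :
    (rowGens n).Acts (rowMat n c) (hyp bondPair (2 * c)) := fun a => by
  show rowMat n c * opGen a = (∑ x, hyp bondPair (2 * c) x a • opGen x) * rowMat n c
  rw [hyp_sum]
  obtain ⟨e, j⟩ := a
  have hcut : ∀ σ m, exp (c * ∑ i, bondTerm σ i) = exp (c * ∑ i, bondTerm (σ + low n m) i) *
      exp (2 * c * ∑ i : Fin n, if (i : ℕ) + 1 = m then bondTerm σ i else 0) := fun σ m => by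
    rw [← exp_add]
    congr 1
    simp only [bondTerm_low, sum_sub_distrib, ← mul_sum]
    ring
  cases e
  · by_cases hj : 0 < (j : ℕ)
    · have hp : bondPair (false, j) = (true, ⟨(j : ℕ) - 1, by omega⟩) := by simp [bondPair, hj]
      rw [hp, if_neg (by simp)]
      simp only [opGen, rowMat, Matrix.add_mul, mono_smul, mono_mul_mono, add_zero, zero_add,
        if_true, if_false, Bool.false_eq_true, show (j : ℕ) - 1 + 1 = j by omega]
      ext σ τ
      simp only [mono, Matrix.of_apply, Matrix.add_apply]
      split_ifs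
      · have hs : (∑ i : Fin n, if (i : ℕ) + 1 = (j : ℕ) then bondTerm σ i else 0) =
            sgn (σ ⟨(j : ℕ) - 1, by omega⟩) * sgn (σ j) := by
          rw [Finset.sum_eq_single (⟨(j : ℕ) - 1, by omega⟩ : Fin n)
            (fun i _ hi => if_neg fun h => hi (Fin.ext (show (i : ℕ) = (j : ℕ) - 1 by omega)))
            (fun h => absurd (mem_univ _) h), if_pos (show (j : ℕ) - 1 + 1 = j by omega), bondTerm,
            dif_pos (show (j : ℕ) - 1 + 1 < n by omega)]
          congr 3
          exact Fin.ext (show (j : ℕ) - 1 + 1 = j by omega)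
        rw [hcut σ j, hs, exp_mul_sgn _ _ (sgn_mul_sgn _ _)]
        linear_combination (exp (c * ∑ i, bondTerm (σ + low n j) i) * sinh (2 * c) *
          sgn (σ ⟨(j : ℕ) - 1, by omega⟩)) * sgn_mul_self (σ j)
      · ring
    · rw [if_pos (by simp [bondPair, hj])]
      have h0 : (j : ℕ) = 0 := by omega
      simp only [opGen, rowMat, mono_mul_mono, add_zero, zero_add, if_false, Bool.false_eq_true]
      congr 1
      funext σ
      rw [hcut σ j, show (∑ i : Fin n, if (i : ℕ) + 1 = (j : ℕ) then bondTerm σ i else 0) = 0 from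
        sum_eq_zero fun i _ => if_neg (by omega), mul_zero, exp_zero]
      ring
  · by_cases hj : (j : ℕ) + 1 < n
    · have hp : bondPair (true, j) = (false, ⟨(j : ℕ) + 1, hj⟩) := by simp [bondPair, hj]
      rw [hp, if_neg (by simp)]
      simp only [opGen, rowMat, Matrix.add_mul, mono_smul, mono_mul_mono, add_zero, zero_add,
        if_true, if_false, Bool.false_eq_true]
      ext σ τ
      simp only [mono, Matrix.of_apply, Matrix.add_apply]
      split_ifs
      · have hs : (∑ i : Fin n, if (i : ℕ) + 1 = (j : ℕ) + 1 then bondTerm σ i else 0) =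
            sgn (σ j) * sgn (σ ⟨(j : ℕ) + 1, hj⟩) := by
          rw [Finset.sum_eq_single j (fun i _ hi => if_neg fun h => hi (Fin.ext (by omega)))
            (fun h => absurd (mem_univ _) h), if_pos rfl, bondTerm, dif_pos hj]
        rw [hcut σ ((j : ℕ) + 1), hs, exp_mul_sgn _ _ (sgn_mul_sgn _ _)]
        linear_combination (exp (c * ∑ i, bondTerm (σ + low n ((j : ℕ) + 1)) i) * sinh (2 * c) *
          sgn (σ ⟨(j : ℕ) + 1, hj⟩)) * sgn_mul_self (σ j)
      · ring
    · rw [if_pos (by simp [bondPair, hj])]
      simp only [opGen, rowMat, mono_mul_mono, add_zero, zero_add, if_true]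
      congr 1
      funext σ
      rw [hcut σ ((j : ℕ) + 1),
        show (∑ i : Fin n, if (i : ℕ) + 1 = (j : ℕ) + 1 then bondTerm σ i else 0) = 0 from
          sum_eq_zero fun i _ => by
            split_ifs with h
            · rw [bondTerm, dif_neg (by omega)]
            · rfl, mul_zero, exp_zero]
      ring

/-! ### The inverse -/

/-- The transfer matrix. -/
def transfer (n : ℕ) (a b : ℝ) : Matrix (Row n) (Row n) ℝ := rowMat n a * linkMat n b

/-- The rotation of the transfer matrix. -/
def rotation (n : ℕ) (a b : ℝ) : Matrix (Idx n) (Idx n) ℝ :=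
  hyp bondPair (2 * a) * hyp sitePair (linkAngle b)

/-- Every second site. -/
def alt (n : ℕ) : Row n := fun i => ((i : ℕ) : ZMod 2)

/-- The parity sign of a row. -/
def parity (σ : Row n) : ℝ := ∏ i, sgn (σ i)

theorem parity_mul_self (σ : Row n) : parity σ * parity σ = 1 := by
  simp [parity, ← prod_mul_distrib, sgn_mul_self]

theorem rowMat_mul_neg (a : ℝ) : rowMat n a * rowMat n (-a) = 1 := by
  rw [rowMat, rowMat, mono_mul_mono, add_zero, ← mono_one]
  congr 1
  funext σ
  rw [add_zero, ← exp_add, neg_mul, add_neg_cancel, exp_zero]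

theorem linkMat_inverse (b : ℝ) :
    linkMat n b * (mono 0 parity * linkMat n b * mono 0 parity) =
      (2 * sinh (2 * b)) ^ n • (1 : Matrix (Row n) (Row n) ℝ) := by
  ext σ τ
  have e : ∀ ρ : Row n, linkMat n b σ ρ *
      (mono 0 parity * linkMat n b * mono 0 parity : Matrix (Row n) (Row n) ℝ) ρ τ =
      ∏ i, exp (b * sgn (σ i + ρ i)) * (exp (b * sgn (ρ i + τ i)) * sgn (ρ i + τ i)) := fun ρ => by
    simp only [mul_mono_apply, mono_mul_apply, add_zero, linkMat, Matrix.of_apply, weight, parity,
      Pi.add_apply, Pi.zero_apply, prod_mul_distrib, sgn_add]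
    ring
  rw [Matrix.mul_apply, sum_congr rfl fun ρ _ => e ρ, ← Fintype.prod_sum
    fun i x => exp (b * sgn (σ i + x)) * (exp (b * sgn (x + τ i)) * sgn (x + τ i))]
  have key : ∀ i, (∑ x : ZMod 2, exp (b * sgn (σ i + x)) *
      (exp (b * sgn (x + τ i)) * sgn (x + τ i))) =
      if σ i = τ i then 2 * sinh (2 * b) else 0 := fun i => by
    have huniv : (univ : Finset (ZMod 2)) = {0, 1} := by decide
    have h01 : (0 : ZMod 2) ≠ 1 := by decide
    have e11 : (1 : ZMod 2) + 1 = 0 := by decide
    rw [huniv, sum_pair h01]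
    rcases zmod_two_cases (σ i) with h | h <;> rcases zmod_two_cases (τ i) with h' | h' <;>
      simp only [h, h', add_zero, zero_add, e11, sgn_zero, sgn_one, mul_one, mul_neg, h01, h01.symm,
        if_true, if_false, sinh_eq, two_mul, exp_add, neg_add]
    all_goals ring
  rw [prod_congr rfl fun i _ => key i]
  simp only [Matrix.smul_apply, Matrix.one_apply, smul_eq_mul, mul_ite, mul_one, mul_zero]
  by_cases h : σ = τ
  · subst h
    simp
  · obtain ⟨i, hi⟩ := Function.ne_iff.1 h
    rw [if_neg h]
    exact prod_eq_zero (mem_univ i) (if_neg hi)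

theorem stagger_rowMat (a : ℝ) :
    (mono 0 parity * mono (alt n) (fun _ => 1)) * rowMat n a *
      (mono (alt n) (fun _ => 1) * mono 0 parity) = rowMat n (-a) := by
  simp only [rowMat, mono_mul_mono, add_zero, zero_add, row_add_self, one_mul, mul_one]
  congr 1
  funext σ
  have e : ∀ i, bondTerm (σ + alt n) i = -bondTerm σ i := fun i => by
    unfold bondTerm
    split_ifs
    · simp only [Pi.add_apply, sgn_add, alt, Nat.cast_add, Nat.cast_one, sgn_one]
      linear_combination -(sgn (σ i) * sgn (σ ⟨(i : ℕ) + 1, by omega⟩)) *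
        sgn_mul_self ((i : ℕ) : ZMod 2)
    · ring
  simp only [e, sum_neg_distrib, mul_neg, neg_mul]
  rw [add_assoc σ, row_add_self, add_zero, mul_right_comm, parity_mul_self, one_mul]

theorem stagger_linkMat (b : ℝ) :
    (mono 0 parity * mono (alt n) (fun _ => 1)) * linkMat n b *
      (mono (alt n) (fun _ => 1) * mono 0 parity) =
      mono 0 parity * linkMat n b * mono 0 parity := by
  ext σ τ
  simp only [mono_mul_mono, add_zero, zero_add, mono_mul_apply, mul_mono_apply, mul_one, one_mul,
    linkMat, Matrix.of_apply]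
  rw [show σ + alt n + (τ + alt n) = σ + τ + (alt n + alt n) by abel, row_add_self, add_zero,
    add_assoc τ, row_add_self, add_zero]

theorem trace_conj_pow {C : Type*} [Fintype C] [DecidableEq C] {U V M : Matrix C C ℝ}
    (h : V * U = 1) (m : ℕ) : ((U * M * V) ^ m).trace = (M ^ m).trace := by
  have h' : U * V = 1 := mul_eq_one_comm.1 h
  have e : (U * M * V) ^ m = U * M ^ m * V := by
    induction m with
    | zero => simp [h']
    | succ m ih =>
      rw [pow_succ, ih, pow_succ]
      simp only [Matrix.mul_assoc]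
      rw [← Matrix.mul_assoc V U, h, Matrix.one_mul]
  rw [e, Matrix.trace_mul_cycle, h, Matrix.one_mul]

theorem trace_mul_pow_comm {C : Type*} [Fintype C] [DecidableEq C] (A B : Matrix C C ℝ) :
    ∀ m : ℕ, ((A * B) ^ m).trace = ((B * A) ^ m).trace
  | 0 => by simp
  | m + 1 => by
    have e : ∀ k, (A * B) ^ (k + 1) = A * ((B * A) ^ k * B) := fun k => by
      induction k with
      | zero => simp
      | succ k ih =>
        rw [pow_succ, ih, pow_succ]
        simp only [Matrix.mul_assoc]
    rw [e, Matrix.trace_mul_comm, Matrix.mul_assoc, ← pow_succ]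

/-- **The trace formula.** -/
theorem trace_transfer_sq {a b : ℝ} (hb : 0 < b) (m : ℕ) :
    ((transfer n a b) ^ m).trace ^ 2 =
      ((2 * sinh (2 * b)) ^ n) ^ m * (1 + rotation n a b ^ m).det := by
  set U := mono 0 parity * mono (alt n) (fun _ => 1) with hU
  set V := mono (alt n) (fun _ => 1) * mono 0 parity with hV
  set c : ℝ := (2 * sinh (2 * b)) ^ n with hc
  have hc0 : c ≠ 0 := (pow_pos (mul_pos two_pos (sinh_pos_iff.2 (by linarith))) n).ne'
  set L := mono 0 parity * linkMat n b * mono 0 parity with hL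
  have hVU : V * U = 1 := by
    simp only [hU, hV, mono_mul_mono, add_zero, zero_add, row_add_self, mul_one, one_mul,
      ← mono_one]
    congr 1
    funext σ
    exact parity_mul_self _
  set S := c⁻¹ • (L * rowMat n (-a)) with hS
  have hTS : transfer n a b * S = 1 := by
    rw [hS, transfer, Matrix.mul_smul, Matrix.mul_assoc, ← Matrix.mul_assoc (linkMat n b), hL,
      linkMat_inverse, Matrix.smul_mul, Matrix.one_mul, Matrix.mul_smul, rowMat_mul_neg, smul_smul,
      inv_mul_cancel₀ hc0, one_smul]
  have hST := mul_eq_one_comm.1 hTS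
  have hcomm : Commute (transfer n a b) S := hTS.trans hST.symm
  have h1 : transfer n a b ^ m * S ^ m = 1 := by rw [← hcomm.mul_pow, hTS, one_pow]
  have h2 := (rowGens n).trace_mul_trace (mul_eq_one_comm.1 h1) h1
    ((((rowMat_acts a).mul (linkMat_acts hb))).pow m)
  have e : U * transfer n a b * V = rowMat n (-a) * L := by
    rw [transfer, hL, ← stagger_rowMat, ← stagger_linkMat, ← hU, ← hV]
    simp only [Matrix.mul_assoc]
    rw [← Matrix.mul_assoc V U, hVU, Matrix.one_mul]
  have h3 : (S ^ m).trace = (c⁻¹) ^ m * (transfer n a b ^ m).trace := by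
    rw [hS, smul_pow, Matrix.trace_smul, smul_eq_mul, trace_mul_pow_comm, ← e,
      trace_conj_pow hVU]
  rw [h3] at h2
  unfold rotation
  rw [← h2, inv_pow]
  field_simp

end FA.Onsager
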