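import Mathlib.LinearAlgebra.Matrix.Charpoly.Coeff
import Mathlib.LinearAlgebra.Matrix.StdBasis
import Mathlib.LinearAlgebra.Trace
import Mathlib.GroupTheory.Perm.Sign
import Mathlib.Data.Real.Basic

/-!
# The trace of a spin lift

Let `γ a` be anticommuting real matrices with scalar squares, as many as it takes to generate the
whole matrix algebra. If `Γ` moves each `γ a` by conjugation to the combination with coefficients
`R`, then `tr Γ * tr Γ⁻¹ = det (1 + R)`: both sides are the trace of the conjugation, computed in
the standard basis and in the basis of monomials.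
-/

set_option autoImplicit false

noncomputable section

open Matrix Finset
open scoped BigOperators

namespace FA.Onsager

variable {C ι : Type*} [Fintype C] [DecidableEq C] [Fintype ι] [DecidableEq ι]

/-- Anticommuting generators of the matrix algebra. -/
structure Gens (C ι : Type*) [Fintype C] [DecidableEq C] [Fintype ι] where
  /-- The generators. -/
  gen : ι → Matrix C C ℝ
  /-- Their squares. -/
  eta : ι → ℝ
  anti : ∀ a b, a ≠ b → gen a * gen b = -(gen b * gen a)
  sq : ∀ a, gen a * gen a = eta a • (1 : Matrix C C ℝ)
  eta_ne : ∀ a, eta a ≠ 0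
  even_card : Even (Fintype.card ι)
  card_eq : Fintype.card C * Fintype.card C = 2 ^ Fintype.card ι

variable (G : Gens C ι)

namespace Gens

/-- `Γ` moves the generators by the matrix `R`. -/
def Acts (Γ : Matrix C C ℝ) (R : Matrix ι ι ℝ) : Prop :=
  ∀ a, Γ * G.gen a = (∑ b, R b a • G.gen b) * Γ

theorem acts_one : G.Acts 1 1 := fun a => by
  simp [Matrix.one_apply, Finset.sum_ite_eq']

variable {G}

omit [DecidableEq ι] in
theorem Acts.mul {Γ Δ : Matrix C C ℝ} {R S : Matrix ι ι ℝ} (h : G.Acts Γ R) (h' : G.Acts Δ S) :
    G.Acts (Γ * Δ) (R * S) := fun a => by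
  rw [Matrix.mul_assoc, h' a, ← Matrix.mul_assoc, Matrix.mul_sum]
  simp only [Matrix.mul_smul, h _, ← Matrix.smul_mul, ← Matrix.sum_mul, Finset.smul_sum, smul_smul]
  rw [Finset.sum_comm, Matrix.mul_assoc]
  simp only [← Finset.sum_smul, Matrix.mul_apply, mul_comm]

theorem Acts.pow {Γ : Matrix C C ℝ} {R : Matrix ι ι ℝ} (h : G.Acts Γ R) :
    ∀ m : ℕ, G.Acts (Γ ^ m) (R ^ m)
  | 0 => by simpa using G.acts_one
  | m + 1 => by
    rw [pow_succ, pow_succ]
    exact (Acts.pow h m).mul h

variable (G)

/-- A product of generators. -/
def word (L : List ι) : Matrix C C ℝ := (L.map G.gen).prod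

omit [DecidableEq ι] in
theorem word_cons (a : ι) (L : List ι) : G.word (a :: L) = G.gen a * G.word L := by simp [word]

omit [DecidableEq ι] in
theorem word_append (L L' : List ι) : G.word (L ++ L') = G.word L * G.word L' := by simp [word]

theorem word_mul_gen (L : List ι) (a : ι) :
    G.word L * G.gen a = (-1 : ℝ) ^ (L.length + L.count a) • (G.gen a * G.word L) := by
  induction L with
  | nil => simp [word]
  | cons b L ih =>
    rw [word_cons, Matrix.mul_assoc, ih, Matrix.mul_smul, ← Matrix.mul_assoc]
    by_cases hb : b = a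
    · subst hb
      rw [List.count_cons_self, List.length_cons, Matrix.mul_assoc,
        show L.length + 1 + (L.count b + 1) = L.length + L.count b + 2 by ring,
        pow_add _ (L.length + L.count b) 2, neg_one_sq, mul_one]
    · rw [List.count_cons_of_ne hb, List.length_cons, G.anti b a hb, Matrix.neg_mul,
        Matrix.mul_assoc, smul_neg,
        show L.length + 1 + L.count a = L.length + L.count a + 1 by ring,
        pow_succ, mul_neg_one, neg_smul]

theorem trace_word {L : List ι} (h : (G.word L).trace ≠ 0) (a : ι) : Even (L.count a) := by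
  have key : ∀ b, Even (L.length + L.count b) := fun b => by
    by_contra hb
    rw [Nat.not_even_iff_odd] at hb
    refine h ?_
    have h1 : (G.word L * G.gen b * G.gen b).trace = -(G.word L * G.gen b * G.gen b).trace := by
      conv_lhs => rw [G.word_mul_gen, hb.neg_one_pow]
      rw [Matrix.smul_mul, Matrix.trace_smul, neg_one_smul, Matrix.trace_mul_cycle,
        Matrix.trace_mul_cycle]
    have h2 : (G.word L * G.gen b * G.gen b).trace = G.eta b * (G.word L).trace := by
      rw [Matrix.mul_assoc, G.sq, Matrix.mul_smul, Matrix.mul_one, Matrix.trace_smul, smul_eq_mul]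
    rw [h2] at h1
    exact (mul_eq_zero.1 (by linarith : G.eta b * (G.word L).trace = 0)).resolve_left (G.eta_ne b)
  have hlen : Even L.length := by
    have hs : Even (∑ b, (L.length + L.count b)) := Finset.even_sum _ fun b _ => key b
    rw [sum_add_distrib, sum_const, smul_eq_mul] at hs
    have hc : ∑ b, L.count b = L.length := by
      have := Multiset.sum_count_eq_card (s := (univ : Finset ι)) (m := (L : Multiset ι))
        fun b _ => mem_univ b
      simpa using this
    rw [hc] at hs
    exact (Nat.even_add.1 hs).1 (G.even_card.mul_right _)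
  exact (Nat.even_add.1 (key a)).1 hlen

omit [DecidableEq ι] in
theorem word_reverse_mul (L : List ι) :
    G.word L.reverse * G.word L = (L.map G.eta).prod • (1 : Matrix C C ℝ) := by
  induction L with
  | nil => simp [word]
  | cons a L ih =>
    rw [List.reverse_cons, word_append, show G.word [a] = G.gen a by simp [word], word_cons,
      Matrix.mul_assoc, ← Matrix.mul_assoc (G.gen a), G.sq,
      Matrix.smul_mul, Matrix.one_mul, Matrix.mul_smul, ih, smul_smul, List.map_cons,
      List.prod_cons]

/-- The coefficient functional of a set. -/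
def coefFun (S : Finset ι) : Matrix C C ℝ →ₗ[ℝ] ℝ :=
  ((G.word S.toList.reverse * G.word S.toList).trace)⁻¹ •
    ((Matrix.traceLinearMap C ℝ ℝ).comp (LinearMap.mulLeft ℝ (G.word S.toList.reverse)))

omit [DecidableEq ι] in
theorem coefFun_apply (S : Finset ι) (X : Matrix C C ℝ) : G.coefFun S X =
    ((G.word S.toList.reverse * G.word S.toList).trace)⁻¹ *
      (G.word S.toList.reverse * X).trace := by
  simp [coefFun]

omit [DecidableEq ι] in
include G in
theorem card_pos : 0 < Fintype.card C := by
  rcases Nat.eq_zero_or_pos (Fintype.card C) with h | h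
  · have := G.card_eq
    rw [h, mul_zero] at this
    exact absurd this.symm (by positivity)
  · exact h

omit [DecidableEq ι] in
theorem coefFun_word (S : Finset ι) : G.coefFun S (G.word S.toList) = 1 := by
  rw [coefFun_apply, inv_mul_cancel₀]
  rw [word_reverse_mul, Matrix.trace_smul, Matrix.trace_one, smul_eq_mul]
  refine mul_ne_zero (List.prod_ne_zero ?_) (Nat.cast_ne_zero.2 G.card_pos.ne')
  simp only [List.mem_map, not_exists, not_and]
  exact fun a _ => G.eta_ne a

/-- Only words using each member of the set oddly often have a coefficient there. -/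
theorem odd_count_of_coefFun {S : Finset ι} {L : List ι} (h : G.coefFun S (G.word L) ≠ 0)
    (a : ι) : Even ((if a ∈ S then 1 else 0) + L.count a) := by
  rw [coefFun_apply] at h
  have := G.trace_word (L := S.toList.reverse ++ L) (a := a) (by
    rw [word_append]
    exact right_ne_zero_of_mul h)
  rwa [List.count_append, List.count_reverse, List.Nodup.count S.nodup_toList,
    if_congr Finset.mem_toList rfl rfl] at this

theorem coefFun_word_ne {S T : Finset ι} (h : S ≠ T) : G.coefFun S (G.word T.toList) = 0 := by
  by_contra hc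
  refine h (Finset.ext fun a => ?_)
  have := G.odd_count_of_coefFun hc a
  rw [List.Nodup.count T.nodup_toList, if_congr Finset.mem_toList rfl rfl] at this
  split_ifs at this with h1 h2 h2 <;> simp_all

theorem word_linearIndependent :
    LinearIndependent ℝ fun S : Finset ι => G.word S.toList := by
  rw [Fintype.linearIndependent_iff]
  intro c hc S
  have := congrArg (G.coefFun S) hc
  rw [map_sum, map_zero, Finset.sum_eq_single S (fun T _ hT => by
    rw [map_smul, G.coefFun_word_ne (Ne.symm hT), smul_zero]) (fun h => absurd (mem_univ S) h),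
    map_smul, G.coefFun_word, smul_eq_mul, mul_one] at this
  exact this

/-- The basis of monomials. -/
def monoBasis : Module.Basis (Finset ι) ℝ (Matrix C C ℝ) :=
  haveI : Nonempty (Finset ι) := ⟨∅⟩
  basisOfLinearIndependentOfCardEqFinrank G.word_linearIndependent (by
    rw [Fintype.card_finset, Module.finrank_matrix, Module.finrank_self, mul_one, G.card_eq])

theorem monoBasis_apply (S : Finset ι) : G.monoBasis S = G.word S.toList := by
  simp [monoBasis]

theorem monoBasis_repr (S : Finset ι) (X : Matrix C C ℝ) :
    G.monoBasis.repr X S = G.coefFun S X := by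
  have : (Finsupp.lapply S).comp G.monoBasis.repr.toLinearMap = G.coefFun S :=
    G.monoBasis.ext fun T => by
      by_cases h : T = S
      · subst h
        simp [monoBasis_apply, coefFun_word]
        rw [← monoBasis_apply, Module.Basis.repr_self, Finsupp.single_eq_same]
      · simp only [LinearMap.comp_apply, LinearEquiv.coe_coe, Finsupp.lapply_apply, monoBasis_apply,
          G.coefFun_word_ne (Ne.symm h)]
        rw [← monoBasis_apply, Module.Basis.repr_self, Finsupp.single_eq_of_ne (Ne.symm h)]
  exact LinearMap.congr_fun this X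

end Gens

/-- The determinant of `1 + M` is the sum of the principal minors. -/
theorem det_one_add_eq_sum_minors (M : Matrix ι ι ℝ) : (1 + M).det =
    ∑ S : Finset ι, (M.submatrix (Subtype.val : S → ι) (Subtype.val : S → ι)).det := by
  set P : Polynomial ℝ := (1 + (Polynomial.X : Polynomial ℝ) • M.map Polynomial.C).det with hP
  have he : P.eval 1 = (1 + M).det := by
    rw [hP, ← Polynomial.coe_evalRingHom, RingHom.map_det]
    congr 1
    ext i j
    simp [Matrix.one_apply, apply_ite]
  have hd : P.natDegree < Fintype.card ι + 1 := by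
    refine Nat.lt_succ_of_le ?_
    rw [hP, add_comm]
    simpa [Matrix.map_one] using Polynomial.natDegree_det_X_add_C_le M 1
  rw [← he, Polynomial.eval_eq_sum_range' hd, ← Finset.powerset_univ, Finset.sum_powerset,
    Finset.card_univ]
  refine sum_congr rfl fun k _ => ?_
  rw [one_pow, mul_one, hP, Matrix.coeff_det_one_add_X_smul_eq_sum_minors]

/-- Permuting pairwise anticommuting factors. -/
theorem prod_ofFn_perm {A : Type*} [Ring A] {k : ℕ} {v : Fin k → A}
    (hv : ∀ i j, i ≠ j → v i * v j = -(v j * v i)) (π : Equiv.Perm (Fin k)) :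
    (List.ofFn (v ∘ π)).prod = (Equiv.Perm.sign π : ℤ) • (List.ofFn v).prod := by
  rcases k with _ | k
  · simp [Subsingleton.elim π 1]
  have hsw : ∀ (k : ℕ) (i : Fin k) (v : Fin (k + 1) → A),
      (∀ i j, i ≠ j → v i * v j = -(v j * v i)) →
      (List.ofFn (v ∘ Equiv.swap i.castSucc i.succ)).prod = -(List.ofFn v).prod := by
    intro k
    induction k with
    | zero => exact fun i => i.elim0
    | succ k ih =>
      intro i v hv
      induction i using Fin.cases with
      | zero =>
        have e : (fun j : Fin k => (v ∘ Equiv.swap (Fin.castSucc 0) (Fin.succ 0)) j.succ.succ) =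
            fun j => v j.succ.succ := funext fun j => by
          rw [Function.comp_apply, Equiv.swap_apply_of_ne_of_ne] <;> simp [Fin.ext_iff]
        simp only [List.ofFn_succ, List.prod_cons, e]
        simp only [Function.comp_apply, Fin.castSucc_zero, Equiv.swap_apply_left,
          Equiv.swap_apply_right, ← mul_assoc]
        rw [hv _ _ (by simp), neg_mul]
      | succ i =>
        have e : (fun j : Fin (k + 1) =>
            (v ∘ Equiv.swap i.succ.castSucc i.succ.succ) j.succ) =
            (fun j => v j.succ) ∘ Equiv.swap i.castSucc i.succ := funext fun j => by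
          simp only [Function.comp_apply, ← Fin.succ_castSucc,
            (Fin.succ_injective _).swap_apply]
        have e0 : (v ∘ Equiv.swap i.succ.castSucc i.succ.succ) 0 = v 0 := by
          simp [Equiv.swap_apply_of_ne_of_ne, Fin.ext_iff]
        rw [List.ofFn_succ, List.prod_cons, e0, e, ih i _ fun a b hab =>
          hv _ _ fun h => hab (Fin.succ_injective _ h), mul_neg, List.ofFn_succ (f := v),
          List.prod_cons]
  have hmem : π ∈ Submonoid.closure (Set.range fun i : Fin k ↦ Equiv.swap i.castSucc i.succ) := by
    rw [Equiv.Perm.mclosure_swap_castSucc_succ]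
    trivial
  revert v
  induction hmem using Submonoid.closure_induction with
  | mem x hx =>
    obtain ⟨i, rfl⟩ := hx
    intro v hv
    rw [hsw k i v hv, Equiv.Perm.sign_swap (Fin.castSucc_lt_succ).ne]
    simp
  | one => intro v _; simp
  | mul x y _ _ ihx ihy =>
    intro v hv
    rw [Equiv.Perm.coe_mul, ← Function.comp_assoc,
      ihy (v := v ∘ x) fun i j hij => hv _ _ fun h => hij (x.injective h), ihx hv, map_mul,
      Units.val_mul,
      smul_smul, mul_comm]

namespace Gens

omit [DecidableEq ι] in
theorem word_toList_conj {Γ Γ' : Matrix C C ℝ} (hinv : Γ' * Γ = 1) (hinv' : Γ * Γ' = 1)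
    (L : List ι) :
    Γ * G.word L * Γ' = (L.map fun a => Γ * G.gen a * Γ').prod := by
  induction L with
  | nil => simp [word, hinv']
  | cons a L ih =>
    rw [word_cons, List.map_cons, List.prod_cons, ← ih]
    simp only [Matrix.mul_assoc]
    rw [← Matrix.mul_assoc Γ' Γ, hinv, Matrix.one_mul]

/-- The coefficient of a conjugated monomial at itself is a principal minor. -/
theorem coefFun_conj {Γ Γ' : Matrix C C ℝ} {R : Matrix ι ι ℝ} (hinv : Γ' * Γ = 1)
    (hinv' : Γ * Γ' = 1) (h : G.Acts Γ R) (S : Finset ι) :
    G.coefFun S (Γ * G.word S.toList * Γ') =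
      (R.submatrix (Subtype.val : S → ι) (Subtype.val : S → ι)).det := by
  set L := S.toList with hL
  set e : Fin L.length → ι := L.get with he
  have einj : Function.Injective e := List.nodup_iff_injective_get.1 S.nodup_toList
  have hv : ∀ a, Γ * G.gen a * Γ' = ∑ b, R b a • G.gen b := fun a => by
    rw [h a, Matrix.mul_assoc, hinv', Matrix.mul_one]
  rw [G.word_toList_conj hinv hinv']
  simp only [hv]
  rw [show L.map (fun a => ∑ b, R b a • G.gen b) =
      List.ofFn fun i => ∑ b, R b (e i) • G.gen b by
    conv_lhs => rw [← List.ofFn_get L, List.map_ofFn]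
    rfl, ← MultilinearMap.mkPiAlgebraFin_apply (R := ℝ), MultilinearMap.map_sum]
  simp only [MultilinearMap.map_smul_univ, MultilinearMap.mkPiAlgebraFin_apply, map_sum, map_smul,
    smul_eq_mul]
  have hword : ∀ f : Fin L.length → ι,
      (List.ofFn fun i => G.gen (f i)).prod = G.word (List.ofFn f) := fun f => by
    rw [word, List.map_ofFn]
    rfl
  simp only [hword]
  rw [← Fintype.sum_of_injective (fun π : Equiv.Perm (Fin L.length) => e ∘ π)
    (fun π π' hp => Equiv.ext fun i => einj (congrFun hp i))
    (fun π => (Equiv.Perm.sign π : ℤ) * ∏ i, R (e (π i)) (e i)) _ (fun f hf => ?_) fun π => ?_]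
  · rw [← Matrix.det_submatrix_equiv_self (R := ℝ)
      (((List.Nodup.getEquiv L S.nodup_toList).trans
        (Equiv.subtypeEquivRight fun a => Finset.mem_toList))), Matrix.submatrix_submatrix,
      Matrix.det_apply']
    rfl
  · by_contra hne
    have hc := fun a => G.odd_count_of_coefFun (right_ne_zero_of_mul hne) a
    have hg : ∀ i, ∃ j, f j = e i := fun i => by
      have h1 := hc (e i)
      rw [if_pos (Finset.mem_toList.1 (List.get_mem L i))] at h1
      have : e i ∈ List.ofFn f := List.count_pos_iff.1 (Nat.pos_of_ne_zero fun h0 => by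
        rw [h0] at h1
        simp at h1)
      exact List.mem_ofFn.1 this
    choose g hg using hg
    have ginj : Function.Injective g := fun i j hij => einj (by rw [← hg i, ← hg j, hij])
    refine hf ⟨(Equiv.ofBijective g (Finite.injective_iff_bijective.1 ginj)).symm,
      funext fun j => ?_⟩
    obtain ⟨i, rfl⟩ := (Finite.injective_iff_bijective.1 ginj).2 j
    simp only [Function.comp_apply, hg i, Equiv.ofBijective_symm_apply_apply]
  · rw [show List.ofFn (e ∘ π) = List.ofFn fun i => (e ∘ π) i from rfl, ← hword,
      show (fun i => G.gen ((e ∘ π) i)) = (fun i => G.gen (e i)) ∘ π from rfl,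
      prod_ofFn_perm (fun i j hij => G.anti _ _ (einj.ne hij)) π, hword, he, List.ofFn_get,
      map_zsmul, show G.coefFun S (G.word L) = 1 from G.coefFun_word S]
    simp [mul_comm]

/-- **The trace of a spin lift.** -/
theorem trace_mul_trace {Γ Γ' : Matrix C C ℝ} {R : Matrix ι ι ℝ} (hinv : Γ' * Γ = 1)
    (hinv' : Γ * Γ' = 1) (h : G.Acts Γ R) : Γ.trace * Γ'.trace = (1 + R).det := by
  set Φ : Matrix C C ℝ →ₗ[ℝ] Matrix C C ℝ :=
    (LinearMap.mulRight ℝ Γ').comp (LinearMap.mulLeft ℝ Γ) with hΦ
  have h1 : LinearMap.trace ℝ _ Φ = Γ.trace * Γ'.trace := by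
    rw [LinearMap.trace_eq_matrix_trace ℝ (Matrix.stdBasis ℝ C C), Matrix.trace, Matrix.trace,
      Matrix.trace, Finset.sum_mul_sum, Fintype.sum_prod_type]
    refine sum_congr rfl fun i _ => sum_congr rfl fun j _ => ?_
    have hrep : ∀ X : Matrix C C ℝ, (Matrix.stdBasis ℝ C C).repr X (i, j) = X i j := fun X => rfl
    simp [LinearMap.toMatrix_apply, hΦ, Matrix.stdBasis_eq_single, hrep, Matrix.mul_apply,
      Matrix.single_apply, ite_and]
  have h2 : LinearMap.trace ℝ _ Φ = ∑ S : Finset ι,
      (R.submatrix (Subtype.val : S → ι) (Subtype.val : S → ι)).det := by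
    rw [LinearMap.trace_eq_matrix_trace ℝ G.monoBasis, Matrix.trace]
    refine sum_congr rfl fun S _ => ?_
    rw [Matrix.diag_apply, LinearMap.toMatrix_apply, G.monoBasis_repr, G.monoBasis_apply,
      ← G.coefFun_conj hinv hinv' h S]
    rfl
  rw [← h1, h2]
  have h3 := det_one_add_eq_sum_minors R
  exact h3.symm

end Gens

end FA.Onsager
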